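import Mathlib.Analysis.SpecialFunctions.Elliptic.Weierstrass

set_option autoImplicit false

/-!
# Elliptic functions: Liouville, local expansions, second order differential equation
-/

namespace Fermat.Agent.Wp

open Filter Topology PeriodPair Module
open scoped PeriodPair

/-- A doubly periodic function which is locally (off each point) equal to an analytic function
is constant (off a discrete set). -/
theorem exists_const (L : PeriodPair) (f : ℂ → ℂ) (hper : ∀ z, ∀ l ∈ L.lattice, f (z + l) = f z)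
    (hloc : ∀ x, ∃ g : ℂ → ℂ, AnalyticAt ℂ g x ∧ f =ᶠ[𝓝[≠] x] g) :
    ∃ c, ∀ x, f =ᶠ[𝓝[≠] x] fun _ => c := by
  choose g hg hfg using hloc
  obtain ⟨F, hF⟩ : ∃ F : ℂ → ℂ, ∀ x, F x = g x x := ⟨fun x => g x x, fun _ => rfl⟩
  have hlim : ∀ x, Tendsto f (𝓝[≠] x) (𝓝 (F x)) := by
    intro x
    rw [hF]
    exact (((hg x).continuousAt.tendsto).mono_left nhdsWithin_le_nhds).congr' (hfg x).symm
  have hFg : ∀ x, F =ᶠ[𝓝 x] g x := by
    intro x
    have h1 : ∀ᶠ y in 𝓝 x, AnalyticAt ℂ (g x) y := (hg x).eventually_analyticAt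
    have h2 : ∀ᶠ y in 𝓝 x, y ≠ x → f y = g x y := by
      have := hfg x
      rw [Filter.EventuallyEq, eventually_nhdsWithin_iff] at this
      exact this
    have h3 := h2.eventually_nhds
    filter_upwards [h1, h3] with y hy1 hy2
    by_cases hyx : y = x
    · subst hyx
      exact hF y
    · have h4 : f =ᶠ[𝓝[≠] y] g x := by
        rw [Filter.EventuallyEq]
        have h5 : ∀ᶠ z in 𝓝 y, z ≠ x := isOpen_ne.mem_nhds hyx
        filter_upwards [nhdsWithin_le_nhds hy2, nhdsWithin_le_nhds h5] with z hz1 hz2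
        exact hz1 hz2
      have h6 : Tendsto f (𝓝[≠] y) (𝓝 (g x y)) :=
        (hy1.continuousAt.tendsto.mono_left nhdsWithin_le_nhds).congr' h4.symm
      exact tendsto_nhds_unique (hlim y) h6
  have hFan : ∀ x, AnalyticAt ℂ F x := fun x => (hg x).congr (hFg x).symm
  have hFper : ∀ z, ∀ l ∈ L.lattice, F (z + l) = F z := by
    intro z l hl
    have h1 := hlim (z + l)
    have h2 : Tendsto (fun w => w + l) (𝓝[≠] z) (𝓝[≠] (z + l)) := by
      refine tendsto_nhdsWithin_iff.2 ⟨?_, ?_⟩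
      · exact ((continuous_add_const l).tendsto z).mono_left nhdsWithin_le_nhds
      · filter_upwards [self_mem_nhdsWithin] with w hw
        simpa using hw
    have h3 := h1.comp h2
    have h4 : f ∘ (fun w => w + l) = f := by
      funext w
      exact hper w l hl
    rw [h4] at h3
    exact tendsto_nhds_unique h3 (hlim z)
  have hdiff : Differentiable ℂ F := fun x => (hFan x).differentiableAt
  have hconst : ∀ x, F x = F 0 := fun x => hdiff.apply_eq_apply_of_bounded
    (IsZLattice.isCompact_range_of_periodic L.lattice _ hdiff.continuous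
      fun z w hw => hFper z w hw).isBounded x 0
  refine ⟨F 0, fun x => ?_⟩
  have h1 := hfg x
  have h2 : F =ᶠ[𝓝[≠] x] g x := (hFg x).filter_mono nhdsWithin_le_nhds
  filter_upwards [h1, h2] with y hy1 hy2
  rw [hy1, ← hy2, hconst]

/-- Taylor expansion with an analytic remainder, valid everywhere. -/
theorem exists_taylor {x : ℂ} (n : ℕ) : ∀ {f : ℂ → ℂ} {p : FormalMultilinearSeries ℂ ℂ ℂ},
    HasFPowerSeriesAt f p x → ∃ g : ℂ → ℂ, AnalyticAt ℂ g x ∧ g x = p.coeff n ∧
      ∀ z, f z = ∑ i ∈ Finset.range n, p.coeff i * (z - x) ^ i + (z - x) ^ n * g z := by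
  induction n with
  | zero =>
    intro f p hp
    refine ⟨f, hp.analyticAt, ?_, fun z => by simp⟩
    have := hp.coeff_zero (fun _ => 1)
    rw [← this]
    rfl
  | succ n ih =>
    intro f p hp
    obtain ⟨g, hg1, hg2, hg3⟩ := ih hp.has_fpower_series_dslope_fslope
    refine ⟨g, hg1, by rw [hg2, FormalMultilinearSeries.coeff_fslope], fun z => ?_⟩
    have h1 := sub_smul_dslope f x z
    have h2 : f x = p.coeff 0 := by
      have := hp.coeff_zero (fun _ => 1)
      rw [← this]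
      rfl
    rw [hg3 z, smul_eq_mul] at h1
    rw [Finset.sum_range_succ']
    simp only [FormalMultilinearSeries.coeff_fslope] at h1
    rw [eq_sub_iff_add_eq] at h1
    rw [← h1, h2, mul_add, Finset.mul_sum]
    simp only [pow_zero, mul_one]
    have h3 : ∀ i ∈ Finset.range n, (z - x) * (p.coeff (i + 1) * (z - x) ^ i) =
        p.coeff (i + 1) * (z - x) ^ (i + 1) := fun i _ => by ring
    rw [Finset.sum_congr rfl h3]
    ring

variable (L : PeriodPair)

/-- Near `0`: `℘(u) = u⁻² + u² R(u)`. -/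
theorem exists_wp_zero : ∃ R : ℂ → ℂ, AnalyticAt ℂ R 0 ∧
    ∀ᶠ u in 𝓝[≠] (0 : ℂ), ℘[L] u = 1 / u ^ 2 + u ^ 2 * R u := by
  obtain ⟨R, hR1, hR2, hR3⟩ := exists_taylor 2 (L.hasFPowerSeriesAt_weierstrassPExcept 0)
  refine ⟨R, hR1, Eventually.of_forall fun u => ?_⟩
  have h1 := hR3 u
  have h2 : L.G 3 = 0 := L.G_eq_zero_of_odd 3 (by decide)
  have h3 := L.weierstrassPExcept_def 0 u
  simp only [Finset.sum_range_succ, Finset.sum_range_zero,
    FormalMultilinearSeries.coeff_ofScalars] at h1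
  norm_num [h2] at h1
  simp only [ZeroMemClass.coe_zero] at h3
  rw [h3] at h1
  norm_num at h1
  have h4 : ℘[L] u = (u ^ 2)⁻¹ + u ^ 2 * R u := by linear_combination h1
  rw [h4, one_div]

theorem hasFPowerSeriesAt_wp {x : ℂ} (hx : x ∉ L.lattice) :
    HasFPowerSeriesAt ℘[L] (L.weierstrassPSeries x) x := by
  obtain ⟨r, h₁, h₂⟩ := Metric.nhds_basis_closedBall.mem_iff.mp
    (L.isClosed_lattice.isOpen_compl.mem_nhds hx)
  lift r to NNReal using h₁.le
  exact (L.hasFPowerSeriesOnBall_weierstrassP x r h₁ h₂).hasFPowerSeriesAt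

theorem coeff_zero' {x : ℂ} : (L.weierstrassPSeries x).coeff 0 = ℘[L] x := by
  simp [weierstrassPSeries, FormalMultilinearSeries.coeff_ofScalars]

theorem coeff_succ {x : ℂ} (i : ℕ) :
    (L.weierstrassPSeries x).coeff (i + 1) = (i + 2) * L.sumInvPow x (i + 3) := by
  simp [weierstrassPSeries, FormalMultilinearSeries.coeff_ofScalars]
  left
  ring

theorem sumInvPow_three (x : ℂ) : L.sumInvPow x 3 = ℘'[L] x / 2 := by
  rw [sumInvPow, derivWeierstrassP, ← tsum_neg, ← tsum_div_const]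
  congr 1
  funext l
  by_cases h : (l : ℂ) = x
  · simp [h]
  have h1 : (l : ℂ) - x ≠ 0 := sub_ne_zero.2 h
  have h2 : x - (l : ℂ) ≠ 0 := sub_ne_zero.2 (Ne.symm h)
  field_simp
  ring

/-- The `n`-th iterated derivative of `℘` off the lattice. -/
theorem iteratedDeriv_wp {x : ℂ} (hx : x ∉ L.lattice) (n : ℕ) :
    iteratedDeriv (n + 1) ℘[L] x = (n + 2).factorial * L.sumInvPow x (n + 3) := by
  have h1 := (hasFPowerSeriesAt_wp L hx).eq_formalMultilinearSeries
    (hasFPowerSeriesAt_wp L hx).analyticAt.hasFPowerSeriesAt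
  have h2 := congrArg (fun p => p.coeff (n + 1)) h1
  simp only [coeff_succ, FormalMultilinearSeries.coeff_ofScalars] at h2
  have h3 : ((n + 1).factorial : ℂ) ≠ 0 := by exact_mod_cast Nat.factorial_ne_zero _
  rw [eq_div_iff h3] at h2
  rw [← h2, Nat.factorial_succ (n + 1)]
  push_cast
  ring

theorem deriv_derivWp {x : ℂ} (hx : x ∉ L.lattice) :
    deriv ℘'[L] x = 6 * L.sumInvPow x 4 := by
  have h1 := iteratedDeriv_wp L hx 1
  rw [iteratedDeriv_succ, iteratedDeriv_one, L.deriv_weierstrassP] at h1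
  rw [h1]
  norm_num [Nat.factorial]

theorem derivWp_ne_zero_near : ∀ᶠ u in 𝓝[≠] (0 : ℂ), ℘'[L] u ≠ 0 := by
  have h1 : Tendsto (fun u : ℂ => u ^ 3 * ℘'[L - (0 : ℂ)] u - 2) (𝓝[≠] 0) (𝓝 (0 ^ 3 * ℘'[L - (0 : ℂ)] 0 - 2)) := by
    have : ContinuousAt (fun u : ℂ => u ^ 3 * ℘'[L - (0 : ℂ)] u - 2) 0 := by
      have := (L.analyticAt_derivWeierstrassPExcept 0).continuousAt
      fun_prop
    exact this.tendsto.mono_left nhdsWithin_le_nhds
  have h2 : ∀ᶠ u in 𝓝[≠] (0 : ℂ), u ^ 3 * ℘'[L - (0 : ℂ)] u - 2 ≠ 0 := by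
    refine h1.eventually_ne ?_
    norm_num
  filter_upwards [h2, self_mem_nhdsWithin] with u hu1 hu2 h0
  apply hu1
  have h3 := L.derivWeierstrassPExcept_def 0 u
  simp only [ZeroMemClass.coe_zero, sub_zero] at h3
  rw [h3, h0]
  have : u ≠ 0 := hu2
  field_simp
  ring

theorem isPreconnected_compl : IsPreconnected ((L.lattice : Set ℂ)ᶜ) := by
  refine (Set.Countable.isConnected_compl_of_one_lt_rank (by simp) ?_).2
  exact countable_of_Lindelof_of_discrete (X := L.lattice)

/-- The second order differential equation. -/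
theorem sumInvPow_four {x : ℂ} (hx : x ∉ L.lattice) :
    L.sumInvPow x 4 = ℘[L] x ^ 2 - L.g₂ / 12 := by
  have hopen : IsOpen ((L.lattice : Set ℂ)ᶜ) := L.isClosed_lattice.isOpen_compl
  have han1 : AnalyticOnNhd ℂ ℘'[L] (L.lattice : Set ℂ)ᶜ := L.analyticOnNhd_derivWeierstrassP
  have han2 : AnalyticOnNhd ℂ (fun z => 2 * deriv ℘'[L] z - 12 * ℘[L] z ^ 2 + L.g₂)
      (L.lattice : Set ℂ)ᶜ := by
    intro z hz
    have h1 := (han1 z hz).deriv
    have h2 := L.analyticOnNhd_weierstrassP z hz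
    fun_prop
  have hmul : ∀ z ∈ (L.lattice : Set ℂ)ᶜ,
      ℘'[L] z * (2 * deriv ℘'[L] z - 12 * ℘[L] z ^ 2 + L.g₂) = 0 := by
    intro z hz
    have h1 : HasDerivAt ℘'[L] (deriv ℘'[L] z) z := (han1 z hz).differentiableAt.hasDerivAt
    have h2 : HasDerivAt ℘[L] (℘'[L] z) z := by
      have := (L.analyticOnNhd_weierstrassP z hz).differentiableAt.hasDerivAt
      rwa [L.deriv_weierstrassP] at this
    have h3 : HasDerivAt (fun w => ℘'[L] w ^ 2) (2 * ℘'[L] z * deriv ℘'[L] z) z := by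
      have := h1.fun_pow 2
      simpa using this
    have h4 : HasDerivAt (fun w => 4 * ℘[L] w ^ 3 - L.g₂ * ℘[L] w - L.g₃)
        (4 * (3 * ℘[L] z ^ 2 * ℘'[L] z) - L.g₂ * ℘'[L] z) z := by
      have h5 := (h2.fun_pow 3).const_mul 4
      have h6 := h2.const_mul L.g₂
      have := (h5.sub h6).sub_const L.g₃
      simpa using this
    have h7 : (fun w => ℘'[L] w ^ 2) =ᶠ[𝓝 z] (fun w => 4 * ℘[L] w ^ 3 - L.g₂ * ℘[L] w - L.g₃) := by
      filter_upwards [hopen.mem_nhds hz] with w hw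
      exact L.derivWeierstrassP_sq w hw
    have h8 := h3.unique (h4.congr_of_eventuallyEq h7)
    linear_combination h8
  rcases AnalyticOnNhd.eq_zero_or_eq_zero_of_mul_eq_zero han1 han2 hmul
    (isPreconnected_compl L) with h | h
  · exfalso
    have h1 := derivWp_ne_zero_near L
    have h2 : ∀ᶠ u in 𝓝[≠] (0 : ℂ), u ∉ L.lattice := by
      have := L.compl_lattice_sdiff_singleton_mem_nhds 0
      filter_upwards [nhdsWithin_le_nhds this, self_mem_nhdsWithin] with u hu1 hu2 hu3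
      exact hu1 ⟨hu3, hu2⟩
    obtain ⟨u, hu1, hu2⟩ := (h1.and h2).exists
    exact hu1 (h u hu2)
  · have h1 := h x hx
    rw [deriv_derivWp L hx] at h1
    linear_combination h1 / 12

/-- Taylor expansion of `℘` at a non-lattice point. -/
theorem exists_wp_taylor {v : ℂ} (hv : v ∉ L.lattice) : ∃ W : ℂ → ℂ, AnalyticAt ℂ W 0 ∧
    ∀ u, ℘[L] (v + u) = ℘[L] v + ℘'[L] v * u + (3 * ℘[L] v ^ 2 - L.g₂ / 4) * u ^ 2 +
      2 * ℘[L] v * ℘'[L] v * u ^ 3 + u ^ 4 * W u := by
  obtain ⟨W, hW1, hW2, hW3⟩ := exists_taylor 4 (hasFPowerSeriesAt_wp L hv)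
  -- the third coefficient
  have h5 : L.sumInvPow v 5 = ℘[L] v * ℘'[L] v / 2 := by
    have h1 := iteratedDeriv_wp L hv 2
    have h2 : iteratedDeriv 2 ℘[L] =ᶠ[𝓝 v] fun w => 6 * ℘[L] w ^ 2 - L.g₂ / 2 := by
      filter_upwards [L.isClosed_lattice.isOpen_compl.mem_nhds hv] with w hw
      have := iteratedDeriv_wp L hw 1
      rw [this, sumInvPow_four L hw]
      norm_num [Nat.factorial]
      ring
    rw [iteratedDeriv_succ] at h1
    rw [h2.deriv_eq] at h1
    have h3 : HasDerivAt ℘[L] (℘'[L] v) v := by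
      have := (L.analyticOnNhd_weierstrassP v hv).differentiableAt.hasDerivAt
      rwa [L.deriv_weierstrassP] at this
    have h4 := ((h3.pow 2).const_mul 6).sub_const (L.g₂ / 2)
    have h6 : deriv (fun w => 6 * ℘[L] w ^ 2 - L.g₂ / 2) v = 12 * ℘[L] v * ℘'[L] v := by
      have h7 := h4.deriv
      refine h7.trans ?_
      push_cast
      ring
    rw [h6] at h1
    norm_num [Nat.factorial] at h1
    linear_combination -h1 / 24
  refine ⟨fun u => W (v + u), ?_, fun u => ?_⟩
  · have h1 : AnalyticAt ℂ (fun u : ℂ => v + u) 0 := by fun_prop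
    have h2 : AnalyticAt ℂ W (v + 0) := by rwa [add_zero]
    exact h2.comp h1
  · rw [hW3 (v + u)]
    simp only [Finset.sum_range_succ, Finset.sum_range_zero, coeff_zero', coeff_succ,
      add_sub_cancel_left]
    have e3 := sumInvPow_three L v
    have e4 := sumInvPow_four L hv
    push_cast
    rw [e3, e4, h5]
    ring

end Fermat.Agent.Wp
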