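import Fermat.Agent.Wp.Modular

set_option autoImplicit false
set_option linter.style.haveILetI false

/-!
# Superlattices of index `p` and the points `pτ`, `(τ+i)/p`
-/

namespace Fermat.Agent.Wp

open UpperHalfPlane hiding I
open Complex Filter Topology PeriodPair Module ModularForm EisensteinSeries
open scoped PeriodPair MatrixGroups Real
open Fermat.Agent.ModFn

theorem mem_scale_perOf {c : ℂ} {hc : c ≠ 0} {τ : ℍ} {x : ℂ} :
    x ∈ (scale c hc (perOf τ)).lattice ↔ ∃ m n : ℤ, x = c * (m * τ + n) := by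
  rw [mem_scale]
  constructor
  · rintro ⟨y, hy, rfl⟩
    obtain ⟨m, n, rfl⟩ := mem_perOf.1 hy
    exact ⟨m, n, rfl⟩
  · rintro ⟨m, n, rfl⟩
    exact ⟨_, mem_perOf.2 ⟨m, n, rfl⟩, rfl⟩

/-- `τ` and `1` are independent. -/
theorem eq_of_comb {τ : ℍ} {a b a' b' : ℝ} (h : (a : ℂ) * τ + b = a' * τ + b') :
    a = a' ∧ b = b' := by
  have him := congrArg Complex.im h
  have hre := congrArg Complex.re h
  simp only [add_im, mul_im, ofReal_re, ofReal_im, zero_mul, add_zero] at him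
  simp only [add_re, mul_re, ofReal_re, ofReal_im, zero_mul, sub_zero] at hre
  have h1 : a = a' := mul_right_cancel₀ τ.im_pos.ne' him
  exact ⟨h1, by rw [h1] at hre; linarith⟩

theorem not_mem_iff {c : ℂ} {hc : c ≠ 0} {τ : ℍ} {p : ℕ} (hp : 0 < p) (m n : ℤ) :
    c * ((m * τ + n) / p) ∈ (scale c hc (perOf τ)).lattice ↔ (p : ℤ) ∣ m ∧ (p : ℤ) ∣ n := by
  have hp0 : (p : ℂ) ≠ 0 := by exact_mod_cast hp.ne'
  have hpR : (p : ℝ) ≠ 0 := by exact_mod_cast hp.ne'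
  rw [mem_scale_perOf]
  constructor
  · rintro ⟨a, b, h⟩
    have h1 := mul_left_cancel₀ hc h
    have h2 : (((m / p : ℝ) : ℂ)) * τ + ((n / p : ℝ) : ℂ) = ((a : ℝ) : ℂ) * τ + ((b : ℝ) : ℂ) := by
      push_cast
      rw [← h1]
      field_simp
    obtain ⟨h3, h4⟩ := eq_of_comb h2
    rw [div_eq_iff hpR] at h3 h4
    exact ⟨⟨a, by exact_mod_cast h3.trans (mul_comm _ _)⟩,
      ⟨b, by exact_mod_cast h4.trans (mul_comm _ _)⟩⟩
  · rintro ⟨⟨a, rfl⟩, ⟨b, rfl⟩⟩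
    refine ⟨a, b, ?_⟩
    push_cast
    field_simp

/-- `L'` is homothetic to `ℤ τ' + ℤ`. -/
def IsOf (L' : PeriodPair) (τ' : ℍ) : Prop := ∃ (c' : ℂ) (hc' : c' ≠ 0), L' = scale c' hc' (perOf τ')

theorem IsOf.jL_eq {L' : PeriodPair} {τ' : ℍ} (h : IsOf L' τ') : jL L' = jH τ' := by
  obtain ⟨c', hc', rfl⟩ := h
  rw [jL_scale, jL_perOf]

theorem IsOf.disc_ne {L' : PeriodPair} {τ' : ℍ} (h : IsOf L' τ') :
    L'.g₂ ^ 3 - 27 * L'.g₃ ^ 2 ≠ 0 := by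
  obtain ⟨c', hc', rfl⟩ := h
  rw [disc_scale]
  exact mul_ne_zero (inv_ne_zero (pow_ne_zero _ hc')) (disc_perOf_ne_zero τ')

/-- First type of superlattices. -/
theorem super_one {c : ℂ} (hc : c ≠ 0) (τ : ℍ) {p : ℕ} (hp : p.Prime) {m n : ℤ}
    (hn : ¬ (p : ℤ) ∣ n) :
    haveI : NeZero p := ⟨hp.ne_zero⟩
    ∃ L' : PeriodPair, IsOf L' (act !![(p : ℤ), 0; 0, 1] τ) ∧
      ∀ w, w ∈ L'.lattice ↔ ∃ l ∈ (scale c hc (perOf τ)).lattice, ∃ k : ℤ,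
        w = l + k * (c * ((((p : ℤ) * m : ℤ) * τ + n) / p)) := by
  haveI : NeZero p := ⟨hp.ne_zero⟩
  have hp0 : (p : ℂ) ≠ 0 := by exact_mod_cast hp.ne_zero
  obtain ⟨τ', hτ'⟩ : ∃ τ', τ' = act !![(p : ℤ), 0; 0, 1] τ := ⟨_, rfl⟩
  have hτc : (τ' : ℂ) = p * τ := by rw [hτ', coe_act_diag]
  refine ⟨scale (c / p) (div_ne_zero hc hp0) (perOf τ'), ?_, fun w => ?_⟩
  · rw [← hτ']
    exact ⟨_, _, rfl⟩
  rw [mem_scale_perOf]
  simp only [mem_scale_perOf, hτc]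
  constructor
  · rintro ⟨a, b, rfl⟩
    obtain ⟨s, t, hst⟩ := ((Nat.prime_iff_prime_int.1 hp).irreducible.coprime_iff_not_dvd.2 hn)
    have hst' : (s : ℂ) * p + t * n = 1 := by exact_mod_cast hst
    refine ⟨_, ⟨a - b * t * m, b * s, rfl⟩, b * t, ?_⟩
    push_cast
    field_simp
    linear_combination (-(b : ℂ)) * hst'
  · rintro ⟨l, ⟨a, b, rfl⟩, k, rfl⟩
    refine ⟨a + k * m, p * b + k * n, ?_⟩
    push_cast
    field_simp
    ring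

/-- Second type of superlattices. -/
theorem super_two {c : ℂ} (hc : c ≠ 0) (τ : ℍ) {p : ℕ} (hp : p.Prime) {m n i : ℤ}
    (hm : ¬ (p : ℤ) ∣ m) (hi : (p : ℤ) ∣ n - m * i) :
    haveI : NeZero p := ⟨hp.ne_zero⟩
    ∃ L' : PeriodPair, IsOf L' (act !![(1 : ℤ), i; 0, (p : ℤ)] τ) ∧
      ∀ w, w ∈ L'.lattice ↔ ∃ l ∈ (scale c hc (perOf τ)).lattice, ∃ k : ℤ,
        w = l + k * (c * ((m * τ + n) / p)) := by
  haveI : NeZero p := ⟨hp.ne_zero⟩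
  have hp0 : (p : ℂ) ≠ 0 := by exact_mod_cast hp.ne_zero
  obtain ⟨τ', hτ'⟩ : ∃ τ', τ' = act !![(1 : ℤ), i; 0, (p : ℤ)] τ := ⟨_, rfl⟩
  have hτc : (τ' : ℂ) = (τ + i) / p := by
    have := coe_act_upper 1 p i τ
    rw [hτ']
    push_cast at this
    rw [this, one_mul]
  obtain ⟨q, hq⟩ := hi
  have hq' : (n : ℂ) - m * i = p * q := by exact_mod_cast hq
  refine ⟨scale c hc (perOf τ'), ?_, fun w => ?_⟩
  · rw [← hτ']
    exact ⟨_, _, rfl⟩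
  rw [mem_scale_perOf]
  simp only [mem_scale_perOf, hτc]
  constructor
  · rintro ⟨a, b, rfl⟩
    obtain ⟨s, t, hst⟩ := ((Nat.prime_iff_prime_int.1 hp).irreducible.coprime_iff_not_dvd.2 hm)
    have hst' : (s : ℂ) * p + t * m = 1 := by exact_mod_cast hst
    -- `(τ+i)/p = t z + s τ + (s i - t q)`
    refine ⟨_, ⟨a * s, b + a * (s * i - t * q), rfl⟩, a * t, ?_⟩
    push_cast
    field_simp
    linear_combination (-(a : ℂ) * (τ + i)) * hst' - (a : ℂ) * t * hq'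
  · rintro ⟨l, ⟨a, b, rfl⟩, k, rfl⟩
    refine ⟨p * a + k * m, b - a * i + k * q, ?_⟩
    push_cast
    field_simp
    linear_combination (k : ℂ) * hq'

/-- Every superlattice of index `p` comes from `pτ` or `(τ+i)/p`. -/
theorem exists_super {c : ℂ} (hc : c ≠ 0) (τ : ℍ) {p : ℕ} (hp : p.Prime) {z : ℂ}
    (hz : z ∉ (scale c hc (perOf τ)).lattice) (hpz : (p : ℂ) * z ∈ (scale c hc (perOf τ)).lattice) :
    haveI : NeZero p := ⟨hp.ne_zero⟩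
    ∃ L' : PeriodPair, (IsOf L' (act !![(p : ℤ), 0; 0, 1] τ) ∨
        ∃ i : ℕ, i < p ∧ IsOf L' (act !![(1 : ℤ), (i : ℤ); 0, (p : ℤ)] τ)) ∧
      ∀ w, w ∈ L'.lattice ↔ ∃ l ∈ (scale c hc (perOf τ)).lattice, ∃ k : ℤ, w = l + k * z := by
  haveI : NeZero p := ⟨hp.ne_zero⟩
  have hp0 : (p : ℂ) ≠ 0 := by exact_mod_cast hp.ne_zero
  obtain ⟨m, n, hmn⟩ := mem_scale_perOf.1 hpz
  have hz' : z = c * ((m * τ + n) / p) := by
    field_simp
    linear_combination hmn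
  subst hz'
  rw [not_mem_iff hp.pos] at hz
  by_cases hm : (p : ℤ) ∣ m
  · obtain ⟨m', rfl⟩ := hm
    have hn : ¬ (p : ℤ) ∣ n := fun h => hz ⟨dvd_mul_right _ _, h⟩
    obtain ⟨L', h1, h2⟩ := super_one hc τ hp (m := m') hn
    exact ⟨L', Or.inl h1, h2⟩
  · obtain ⟨s, t, hst⟩ := ((Nat.prime_iff_prime_int.1 hp).irreducible.coprime_iff_not_dvd.2 hm)
    have hpos : (0 : ℤ) < p := by exact_mod_cast hp.pos
    obtain ⟨i, hi⟩ : ∃ i : ℕ, (i : ℤ) = (t * n) % p := ⟨((t * n) % p).toNat,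
      Int.toNat_of_nonneg (Int.emod_nonneg _ hpos.ne')⟩
    have hip : i < p := by
      have := Int.emod_lt_of_pos (t * n) hpos
      omega
    have hdvd : (p : ℤ) ∣ n - m * i := by
      have h1 := Int.emod_add_mul_ediv (t * n) p
      rw [← hi] at h1
      refine ⟨s * n + m * (t * n / p), ?_⟩
      have h2 : (i : ℤ) = t * n - p * (t * n / p) := by linarith
      rw [h2]
      linear_combination (-n) * hst
    obtain ⟨L', h1, h2⟩ := super_two hc τ hp hm hdvd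
    exact ⟨L', Or.inr ⟨i, hip, h1⟩, h2⟩

/-- Conversely. -/
theorem exists_gen_inf {c : ℂ} (hc : c ≠ 0) (τ : ℍ) {p : ℕ} (hp : p.Prime) :
    haveI : NeZero p := ⟨hp.ne_zero⟩
    ∃ z : ℂ, z ∉ (scale c hc (perOf τ)).lattice ∧ (p : ℂ) * z ∈ (scale c hc (perOf τ)).lattice ∧
    ∃ L' : PeriodPair, IsOf L' (act !![(p : ℤ), 0; 0, 1] τ) ∧
      ∀ w, w ∈ L'.lattice ↔ ∃ l ∈ (scale c hc (perOf τ)).lattice, ∃ k : ℤ, w = l + k * z := by
  haveI : NeZero p := ⟨hp.ne_zero⟩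
  have hp0 : (p : ℂ) ≠ 0 := by exact_mod_cast hp.ne_zero
  have h1 : ¬ (p : ℤ) ∣ 1 := by
    intro h
    have := Int.le_of_dvd one_pos h
    have := hp.two_le
    omega
  obtain ⟨L', h2, h3⟩ := super_one hc τ hp (m := 0) h1
  refine ⟨_, ?_, ?_, L', h2, h3⟩
  · rw [not_mem_iff hp.pos]
    exact fun h => h1 h.2
  · rw [mem_scale_perOf]
    refine ⟨0, 1, ?_⟩
    push_cast
    field_simp
    ring

theorem exists_gen_fin {c : ℂ} (hc : c ≠ 0) (τ : ℍ) {p : ℕ} (hp : p.Prime) (i : ℤ) :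
    haveI : NeZero p := ⟨hp.ne_zero⟩
    ∃ z : ℂ, z ∉ (scale c hc (perOf τ)).lattice ∧ (p : ℂ) * z ∈ (scale c hc (perOf τ)).lattice ∧
    ∃ L' : PeriodPair, IsOf L' (act !![(1 : ℤ), i; 0, (p : ℤ)] τ) ∧
      ∀ w, w ∈ L'.lattice ↔ ∃ l ∈ (scale c hc (perOf τ)).lattice, ∃ k : ℤ, w = l + k * z := by
  haveI : NeZero p := ⟨hp.ne_zero⟩
  have hp0 : (p : ℂ) ≠ 0 := by exact_mod_cast hp.ne_zero
  have h1 : ¬ (p : ℤ) ∣ 1 := by
    intro h
    have := Int.le_of_dvd one_pos h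
    have := hp.two_le
    omega
  obtain ⟨L', h2, h3⟩ := super_two hc τ hp (n := i) (i := i) h1 (by simp)
  refine ⟨_, ?_, ?_, L', h2, h3⟩
  · rw [not_mem_iff hp.pos]
    exact fun h => h1 h.1
  · rw [mem_scale_perOf]
    refine ⟨1, i, ?_⟩
    push_cast
    field_simp

end Fermat.Agent.Wp
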