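import Fermat.Agent.Wp.Super
import Fermat.Agent.ModFn.Orders
import Fermat.Agent.ModFn.ModR

set_option autoImplicit false

/-!
# Lattices and the upper half plane
-/

namespace Fermat.Agent.Wp

open UpperHalfPlane hiding I
open Complex Filter Topology PeriodPair Module ModularForm EisensteinSeries
open scoped PeriodPair MatrixGroups Real
open Fermat.Agent.ModFn

/-- The lattice `ℤ τ + ℤ`. -/
noncomputable def perOf (τ : ℍ) : PeriodPair where
  ω₁ := τ
  ω₂ := 1
  indep := by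
    rw [LinearIndependent.pair_iff]
    intro s t h
    have him := congrArg Complex.im h
    simp only [real_smul, mul_one, add_im, mul_im, ofReal_re, ofReal_im, zero_mul, add_zero,
      zero_im] at him
    have hs : s = 0 := by
      rcases mul_eq_zero.1 him with h1 | h1
      · exact h1
      · exact absurd h1 τ.im_pos.ne'
    subst hs
    simp at h
    exact ⟨rfl, h⟩

/-- Scaling a lattice. -/
noncomputable def scale (c : ℂ) (hc : c ≠ 0) (L : PeriodPair) : PeriodPair where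
  ω₁ := c * L.ω₁
  ω₂ := c * L.ω₂
  indep := by
    rw [LinearIndependent.pair_iff]
    intro s t h
    have h1 : c * (s • L.ω₁ + t • L.ω₂) = 0 := by
      rw [← h]
      simp only [real_smul]
      ring
    rcases mul_eq_zero.1 h1 with h2 | h2
    · exact absurd h2 hc
    · exact LinearIndependent.pair_iff.1 L.indep s t h2

theorem mem_scale {c : ℂ} {hc : c ≠ 0} {L : PeriodPair} {x : ℂ} :
    x ∈ (scale c hc L).lattice ↔ ∃ y ∈ L.lattice, x = c * y := by
  rw [mem_lattice]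
  constructor
  · rintro ⟨m, n, h⟩
    refine ⟨m * L.ω₁ + n * L.ω₂, mem_lattice.2 ⟨m, n, rfl⟩, ?_⟩
    rw [← h]
    simp only [scale]
    ring
  · rintro ⟨y, hy, rfl⟩
    obtain ⟨m, n, rfl⟩ := mem_lattice.1 hy
    refine ⟨m, n, ?_⟩
    simp only [scale]
    ring

theorem mem_perOf {τ : ℍ} {x : ℂ} : x ∈ (perOf τ).lattice ↔ ∃ m n : ℤ, (m : ℂ) * τ + n = x := by
  rw [mem_lattice]
  simp [perOf]

theorem G_scale {c : ℂ} (hc : c ≠ 0) (L : PeriodPair) (n : ℕ) :
    (scale c hc L).G n = (c ^ n)⁻¹ * L.G n := by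
  have hb : Function.Bijective (fun x : L.lattice =>
      (⟨c * x, mem_scale.2 ⟨x, x.2, rfl⟩⟩ : (scale c hc L).lattice)) := by
    refine ⟨fun x y h => ?_, fun ⟨w, hw⟩ => ?_⟩
    · have := congrArg Subtype.val h
      exact Subtype.ext (mul_left_cancel₀ hc this)
    · obtain ⟨y, hy, rfl⟩ := mem_scale.1 hw
      exact ⟨⟨y, hy⟩, rfl⟩
  rw [G, G, ← (Equiv.ofBijective _ hb).tsum_eq, ← tsum_mul_left]
  refine tsum_congr fun x => ?_
  simp [mul_pow]
  ring

theorem g₂_scale {c : ℂ} (hc : c ≠ 0) (L : PeriodPair) :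
    (scale c hc L).g₂ = (c ^ 4)⁻¹ * L.g₂ := by
  rw [g₂, g₂, G_scale]; ring

theorem g₃_scale {c : ℂ} (hc : c ≠ 0) (L : PeriodPair) :
    (scale c hc L).g₃ = (c ^ 6)⁻¹ * L.g₃ := by
  rw [g₃, g₃, G_scale]; ring

theorem G_perOf (τ : ℍ) {k : ℕ} (hk : 3 ≤ k) :
    (perOf τ).G k = 2 * riemannZeta k * ModularForm.E hk τ := by
  have h1 := tsum_eisSummand_eq_riemannZeta_mul_eisensteinSeries hk τ
  have h2 : ModularForm.E hk τ = (1 / 2 : ℂ) • eisensteinSeriesSIF (N := 1) 0 k τ := rfl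
  have h3 : (perOf τ).G k = ∑' v : Fin 2 → ℤ, eisSummand k v τ := by
    rw [G, ← (perOf τ).latticeEquivProd.symm.toEquiv.tsum_eq,
      ← (finTwoArrowEquiv ℤ).symm.tsum_eq]
    refine tsum_congr fun x => ?_
    have h4 : (((perOf τ).latticeEquivProd.symm.toEquiv x : (perOf τ).lattice) : ℂ) =
        x.1 * τ + x.2 := by
      have := (perOf τ).latticeEquiv_symm_apply x
      rw [LinearEquiv.coe_toEquiv]
      rw [this]
      simp [perOf]
    rw [eisSummand, h4]
    simp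
  rw [h3, h1, h2, eisensteinSeriesSIF_apply, smul_eq_mul]
  ring

theorem riemannZeta_six' : riemannZeta 6 = π ^ 6 / 945 := by
  have := riemannZeta_two_mul_nat (k := 3) (by norm_num)
  norm_num at this
  rw [this, show bernoulli 6 = 1 / 42 by decide +kernel]
  norm_num [Nat.factorial]
  ring

theorem g₂_perOf (τ : ℍ) : (perOf τ).g₂ = 4 * π ^ 4 / 3 * E₄ τ := by
  rw [g₂, G_perOf τ (by norm_num : 3 ≤ 4)]
  push_cast
  rw [riemannZeta_four]
  ring

theorem g₃_perOf (τ : ℍ) : (perOf τ).g₃ = 8 * π ^ 6 / 27 * E₆ τ := by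
  rw [g₃, G_perOf τ (by norm_num : 3 ≤ 6)]
  push_cast
  rw [riemannZeta_six']
  ring

/-- The `j`-invariant of a lattice. -/
noncomputable def jL (L : PeriodPair) : ℂ := 1728 * L.g₂ ^ 3 / (L.g₂ ^ 3 - 27 * L.g₃ ^ 2)

theorem disc_perOf (τ : ℍ) : (perOf τ).g₂ ^ 3 - 27 * (perOf τ).g₃ ^ 2 =
    4096 * π ^ 12 * discriminant τ := by
  rw [g₂_perOf, g₃_perOf, discriminant_eq_E₄_cube_sub_E₆_sq τ]
  ring

theorem pi_ne : (π : ℂ) ≠ 0 := by exact_mod_cast Real.pi_ne_zero

theorem disc_perOf_ne_zero (τ : ℍ) : (perOf τ).g₂ ^ 3 - 27 * (perOf τ).g₃ ^ 2 ≠ 0 := by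
  rw [disc_perOf]
  exact mul_ne_zero (mul_ne_zero (by norm_num) (pow_ne_zero _ pi_ne)) (discriminant_ne_zero τ)

theorem jL_perOf (τ : ℍ) : jL (perOf τ) = jH τ := by
  rw [jL, disc_perOf, g₂_perOf, jH_apply]
  have h1 := pi_ne
  have h2 := discriminant_ne_zero τ
  field_simp
  ring

theorem disc_scale {c : ℂ} (hc : c ≠ 0) (L : PeriodPair) :
    (scale c hc L).g₂ ^ 3 - 27 * (scale c hc L).g₃ ^ 2 =
      (c ^ 12)⁻¹ * (L.g₂ ^ 3 - 27 * L.g₃ ^ 2) := by
  rw [g₂_scale, g₃_scale]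
  field_simp

theorem jL_scale {c : ℂ} (hc : c ≠ 0) (L : PeriodPair) : jL (scale c hc L) = jL L := by
  rw [jL, disc_scale, g₂_scale, jL]
  by_cases h : L.g₂ ^ 3 - 27 * L.g₃ ^ 2 = 0
  · rw [h]; simp
  field_simp

/-- **Uniformization**: every pair with nonzero discriminant comes from a lattice. -/
theorem exists_lattice {A B : ℂ} (hAB : A ^ 3 - 27 * B ^ 2 ≠ 0) :
    ∃ (τ : ℍ) (c : ℂ) (hc : c ≠ 0), (scale c hc (perOf τ)).g₂ = A ∧
      (scale c hc (perOf τ)).g₃ = B := by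
  obtain ⟨τ, hτ⟩ := jH_surjective (1728 * A ^ 3 / (A ^ 3 - 27 * B ^ 2))
  set a := (perOf τ).g₂ with ha
  set b := (perOf τ).g₃ with hb
  have hab : a ^ 3 - 27 * b ^ 2 ≠ 0 := disc_perOf_ne_zero τ
  have hrel : A ^ 3 * b ^ 2 = a ^ 3 * B ^ 2 := by
    rw [← jL_perOf, jL, ← ha, ← hb, div_eq_div_iff hab hAB] at hτ
    linear_combination (1 / 1728 / 27) * hτ
  -- find the scaling
  suffices h : ∃ c : ℂ, c ≠ 0 ∧ a = c ^ 4 * A ∧ b = c ^ 6 * B by
    obtain ⟨c, hc, h1, h2⟩ := h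
    refine ⟨τ, c, hc, ?_, ?_⟩
    · rw [g₂_scale, ← ha, h1]
      field_simp
    · rw [g₃_scale, ← hb, h2]
      field_simp
  by_cases hA : A = 0
  · have hB : B ≠ 0 := by
      rintro rfl
      exact hAB (by rw [hA]; ring)
    have ha0 : a = 0 := by
      rw [hA] at hrel
      have : a ^ 3 * B ^ 2 = 0 := by rw [← hrel]; ring
      rcases mul_eq_zero.1 this with h | h
      · exact pow_eq_zero_iff (by norm_num) |>.1 h
      · exact absurd (pow_eq_zero_iff (by norm_num) |>.1 h) hB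
    have hb0 : b ≠ 0 := by
      rintro h
      exact hab (by rw [ha0, h]; ring)
    obtain ⟨c, hc⟩ := IsAlgClosed.exists_pow_nat_eq (b / B) (n := 6) (by norm_num)
    refine ⟨c, ?_, by rw [ha0, hA, mul_zero], by rw [hc]; field_simp⟩
    rintro rfl
    have : b / B = 0 := by rw [← hc]; ring
    rcases div_eq_zero_iff.1 this with h | h
    · exact hb0 h
    · exact hB h
  by_cases hB : B = 0
  · have hb0 : b = 0 := by
      rw [hB] at hrel
      have : A ^ 3 * b ^ 2 = 0 := by rw [hrel]; ring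
      rcases mul_eq_zero.1 this with h | h
      · exact absurd (pow_eq_zero_iff (by norm_num) |>.1 h) hA
      · exact pow_eq_zero_iff (by norm_num) |>.1 h
    have ha0 : a ≠ 0 := by
      rintro h
      exact hab (by rw [hb0, h]; ring)
    obtain ⟨c, hc⟩ := IsAlgClosed.exists_pow_nat_eq (a / A) (n := 4) (by norm_num)
    refine ⟨c, ?_, by rw [hc]; field_simp, by rw [hb0, hB, mul_zero]⟩
    rintro rfl
    have : a / A = 0 := by rw [← hc]; ring
    rcases div_eq_zero_iff.1 this with h | h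
    · exact ha0 h
    · exact hA h
  · have ha0 : a ≠ 0 := by
      rintro h
      have : A ^ 3 * b ^ 2 = 0 := by rw [hrel, h]; ring
      rcases mul_eq_zero.1 this with h' | h'
      · exact hA (pow_eq_zero_iff (by norm_num) |>.1 h')
      · exact hab (by rw [h, pow_eq_zero_iff (by norm_num) |>.1 h']; ring)
    have hb0 : b ≠ 0 := by
      rintro h
      have : a ^ 3 * B ^ 2 = 0 := by rw [← hrel, h]; ring
      rcases mul_eq_zero.1 this with h' | h'
      · exact ha0 (pow_eq_zero_iff (by norm_num) |>.1 h')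
      · exact hB (pow_eq_zero_iff (by norm_num) |>.1 h')
    obtain ⟨c, hc⟩ := IsAlgClosed.exists_pow_nat_eq (b * A / (B * a)) (n := 2) (by norm_num)
    have hc4 : c ^ 4 = a / A := by
      rw [show c ^ 4 = (c ^ 2) ^ 2 by ring, hc]
      rw [div_pow, div_eq_div_iff (by positivity) hA]
      linear_combination (1 : ℂ) * hrel
    refine ⟨c, ?_, by rw [hc4]; field_simp, ?_⟩
    · rintro rfl
      have : b * A / (B * a) = 0 := by rw [← hc]; ring
      rcases div_eq_zero_iff.1 this with h | h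
      · exact (mul_ne_zero hb0 hA) h
      · exact (mul_ne_zero hB ha0) h
    · rw [show c ^ 6 = c ^ 4 * c ^ 2 by ring, hc4, hc]
      field_simp

end Fermat.Agent.Wp
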