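import Fermat.Agent.Wp.Basic

set_option autoImplicit false

/-!
# The sum formula for `℘(u+v) + ℘(u-v)` and the duplication formula
-/

namespace Fermat.Agent.Wp

open Filter Topology PeriodPair Module
open scoped PeriodPair

variable (L : PeriodPair)

theorem analyticAt_wp_add {v x : ℂ} (h : x + v ∉ L.lattice) :
    AnalyticAt ℂ (fun u => ℘[L] (u + v)) x := by
  have h1 := L.analyticOnNhd_weierstrassP (x + v) h
  exact h1.comp_of_eq (f := fun u : ℂ => u + v) (by fun_prop) rfl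

/-- Local form at a translate of a point. -/
theorem local_translate {f : ℂ → ℂ} (hper : ∀ z, ∀ l ∈ L.lattice, f (z + l) = f z) {x l : ℂ}
    (hl : l ∈ L.lattice) (hx : ∃ g : ℂ → ℂ, AnalyticAt ℂ g x ∧ f =ᶠ[𝓝[≠] x] g) :
    ∃ g : ℂ → ℂ, AnalyticAt ℂ g (x + l) ∧ f =ᶠ[𝓝[≠] (x + l)] g := by
  obtain ⟨g, hg1, hg2⟩ := hx
  refine ⟨fun z => g (z - l), ?_, ?_⟩
  · exact hg1.comp_of_eq (f := fun u : ℂ => u - l) (by fun_prop) (by ring)
  · have h2 : Tendsto (fun w => w - l) (𝓝[≠] (x + l)) (𝓝[≠] x) := by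
      refine tendsto_nhdsWithin_iff.2 ⟨?_, ?_⟩
      · have := ((continuous_sub_right l).tendsto (x + l)).mono_left
          (nhdsWithin_le_nhds (s := {x + l}ᶜ))
        simpa using this
      · filter_upwards [self_mem_nhdsWithin] with w hw
        intro h
        exact hw (by simpa [sub_eq_iff_eq_add] using h)
    filter_upwards [h2.eventually hg2] with w hw
    rw [← hw]
    have := hper (w - l) l hl
    rw [sub_add_cancel] at this
    exact this

theorem local_neg {f : ℂ → ℂ} (heven : ∀ z, f (-z) = f z) {x : ℂ}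
    (hx : ∃ g : ℂ → ℂ, AnalyticAt ℂ g x ∧ f =ᶠ[𝓝[≠] x] g) :
    ∃ g : ℂ → ℂ, AnalyticAt ℂ g (-x) ∧ f =ᶠ[𝓝[≠] (-x)] g := by
  obtain ⟨g, hg1, hg2⟩ := hx
  refine ⟨fun z => g (-z), ?_, ?_⟩
  · exact hg1.comp_of_eq (f := fun u : ℂ => -u) (by fun_prop) (by ring)
  · have h2 : Tendsto (fun w => -w) (𝓝[≠] (-x)) (𝓝[≠] x) := by
      refine tendsto_nhdsWithin_iff.2 ⟨?_, ?_⟩
      · have := (continuous_neg.tendsto (-x)).mono_left (nhdsWithin_le_nhds (s := {-x}ᶜ))
        simpa using this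
      · filter_upwards [self_mem_nhdsWithin] with w hw
        intro h
        apply hw
        simp only [Set.mem_singleton_iff] at h ⊢
        rw [← h, neg_neg]
    filter_upwards [h2.eventually hg2] with w hw
    rw [← hw, heven]

/-- Data near `u = v`. -/
theorem near_v {v : ℂ} (hv : v ∉ L.lattice) :
    ∃ K : ℂ → ℂ, AnalyticAt ℂ K 0 ∧ K 0 = ℘'[L] v ∧
      (∀ h, ℘[L] (v + h) - ℘[L] v = h * K h) ∧
      K = fun h => ℘'[L] v + (3 * ℘[L] v ^ 2 - L.g₂ / 4) * h + 2 * ℘[L] v * ℘'[L] v * h ^ 2 +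
        h ^ 3 * (exists_wp_taylor L hv).choose h := by
  have hW := (exists_wp_taylor L hv).choose_spec
  set W := (exists_wp_taylor L hv).choose with hWdef
  refine ⟨_, ?_, ?_, ?_, rfl⟩
  · have := hW.1
    fun_prop
  · simp
  · intro h
    rw [hW.2 h]
    ring

/-- **Sum formula.** -/
theorem wp_sum_formula {u v : ℂ} (hv : v ∉ L.lattice) (h2v : 2 * v ∉ L.lattice)
    (hu : u ∉ L.lattice) (huv : u + v ∉ L.lattice) (huv' : u - v ∉ L.lattice) :
    (℘[L] (u + v) + ℘[L] (u - v)) * (℘[L] u - ℘[L] v) ^ 2 =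
      (2 * ℘[L] u * ℘[L] v - L.g₂ / 2) * (℘[L] u + ℘[L] v) - L.g₃ := by
  set y := ℘[L] v with hy
  set a := ℘'[L] v with ha
  obtain ⟨f, hf⟩ : ∃ f : ℂ → ℂ, f = fun u => (℘[L] (u + v) + ℘[L] (u - v)) * (℘[L] u - y) ^ 2 -
      ((2 * ℘[L] u * y - L.g₂ / 2) * (℘[L] u + y) - L.g₃) := ⟨_, rfl⟩
  have hper : ∀ z, ∀ l ∈ L.lattice, f (z + l) = f z := by
    intro z l hl
    have e1 := L.weierstrassP_add_coe z ⟨l, hl⟩
    have e2 := L.weierstrassP_add_coe (z + v) ⟨l, hl⟩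
    have e3 := L.weierstrassP_add_coe (z - v) ⟨l, hl⟩
    simp only at e1 e2 e3
    rw [hf]
    simp only
    rw [show z + l + v = z + v + l by ring, show z + l - v = z - v + l by ring, e1, e2, e3]
  have heven : ∀ z, f (-z) = f z := by
    intro z
    rw [hf]
    simp only
    rw [L.weierstrassP_neg, show -z + v = -(z - v) by ring, show -z - v = -(z + v) by ring,
      L.weierstrassP_neg, L.weierstrassP_neg, add_comm (℘[L] (z - v))]
  have hgen : ∀ x, x ∉ L.lattice → x + v ∉ L.lattice → x - v ∉ L.lattice → AnalyticAt ℂ f x := by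
    intro x h1 h2 h3
    have a1 := L.analyticOnNhd_weierstrassP x h1
    have a2 := analyticAt_wp_add L h2
    have a3 : AnalyticAt ℂ (fun u => ℘[L] (u - v)) x := by
      have := analyticAt_wp_add L (v := -v) (x := x) (by rwa [← sub_eq_add_neg])
      simpa [sub_eq_add_neg] using this
    rw [hf]
    fun_prop
  -- expansion at zero
  have hzero : ∃ g : ℂ → ℂ, AnalyticAt ℂ g 0 ∧ f =ᶠ[𝓝[≠] (0 : ℂ)] g := by
    obtain ⟨R, hR1, hR2⟩ := exists_wp_zero L
    obtain ⟨W, hW1, hW2⟩ := exists_wp_taylor L hv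
    obtain ⟨T, hT⟩ : ∃ T : ℂ → ℂ, T = fun u => W (-u) := ⟨_, rfl⟩
    refine ⟨fun u => 2 * (3 * y ^ 2 - L.g₂ / 4) * (1 + u ^ 4 * R u) * R u * u ^ 2 + 2 * y ^ 3 -
      4 * (3 * y ^ 2 - L.g₂ / 4) * y * (1 + u ^ 4 * R u) +
      2 * (3 * y ^ 2 - L.g₂ / 4) * y ^ 2 * u ^ 2 +
      (W u + T u) * ((1 + u ^ 4 * R u) - y * u ^ 2) ^ 2 + L.g₂ / 2 * y + L.g₃, ?_, ?_⟩
    · have hWn : AnalyticAt ℂ T 0 := by
        rw [hT]
        exact hW1.comp_of_eq (f := fun u : ℂ => -u) (by fun_prop) (by simp)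
      fun_prop
    · filter_upwards [hR2, self_mem_nhdsWithin] with u hu1 hu2
      have hu0 : u ≠ 0 := hu2
      rw [hf]
      simp only
      have e1 : ℘[L] (u + v) = y + a * u + (3 * y ^ 2 - L.g₂ / 4) * u ^ 2 + 2 * y * a * u ^ 3 +
          u ^ 4 * W u := by rw [add_comm u v, hW2 u]
      have e2 : ℘[L] (u - v) = y + a * (-u) + (3 * y ^ 2 - L.g₂ / 4) * (-u) ^ 2 +
          2 * y * a * (-u) ^ 3 + (-u) ^ 4 * W (-u) := by
        rw [← L.weierstrassP_neg, show -(u - v) = v + -u by ring, hW2 (-u)]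
      rw [e1, e2, hu1, hT]
      field_simp
      ring
  -- expansion at v
  obtain ⟨K, hK1, hK2, hK3, -⟩ := near_v L hv
  obtain ⟨R, hR1, hR2⟩ := exists_wp_zero L
  obtain ⟨g, hg⟩ : ∃ g : ℂ → ℂ, g = fun h => (℘[L] (2 * v + h) + h ^ 2 * R h) * h ^ 2 * K h ^ 2 +
      K h ^ 2 - ((2 * (y + h * K h) * y - L.g₂ / 2) * (y + h * K h + y) - L.g₃) := ⟨_, rfl⟩
  have hgan : AnalyticAt ℂ g 0 := by
    have h1 : AnalyticAt ℂ (fun h => ℘[L] (2 * v + h)) 0 := by
      have := analyticAt_wp_add L (v := 2 * v) (x := 0) (by rwa [zero_add])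
      simpa [add_comm] using this
    rw [hg]
    fun_prop
  have hg0 : g 0 = 0 := by
    rw [hg]
    simp only
    rw [hK2]
    have := L.derivWeierstrassP_sq v hv
    rw [← hy] at this
    linear_combination this
  have hfg : ∀ᶠ h in 𝓝[≠] (0 : ℂ), f (v + h) = g h := by
    filter_upwards [hR2, self_mem_nhdsWithin] with h hh1 hh2
    have hh0 : h ≠ 0 := hh2
    have e1 : ℘[L] (v + h) = y + h * K h := by linear_combination hK3 h
    rw [hf, hg]
    simp only
    rw [show v + h + v = 2 * v + h by ring, show v + h - v = h by ring, e1, hh1]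
    field_simp
    ring
  have hshift : Tendsto (fun w => w - v) (𝓝[≠] v) (𝓝[≠] (0 : ℂ)) := by
    refine tendsto_nhdsWithin_iff.2 ⟨?_, ?_⟩
    · have := ((continuous_sub_right v).tendsto v).mono_left (nhdsWithin_le_nhds (s := {v}ᶜ))
      simpa using this
    · filter_upwards [self_mem_nhdsWithin] with w hw
      intro h
      exact hw (by simpa [sub_eq_zero] using h)
  have hvloc : ∃ g : ℂ → ℂ, AnalyticAt ℂ g v ∧ f =ᶠ[𝓝[≠] v] g := by
    refine ⟨fun z => g (z - v), ?_, ?_⟩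
    · exact hgan.comp_of_eq (f := fun u : ℂ => u - v) (by fun_prop) (by ring)
    · filter_upwards [hshift.eventually hfg] with w hw
      rw [← hw]
      congr 1
      ring
  have hloc : ∀ x, ∃ g : ℂ → ℂ, AnalyticAt ℂ g x ∧ f =ᶠ[𝓝[≠] x] g := by
    intro x
    by_cases h1 : x ∈ L.lattice
    · have := local_translate L hper h1 hzero
      rwa [zero_add] at this
    by_cases h2 : x - v ∈ L.lattice
    · have := local_translate L hper h2 hvloc
      rwa [add_sub_cancel] at this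
    by_cases h3 : x + v ∈ L.lattice
    · have h4 := local_neg heven hvloc
      have := local_translate L hper h3 h4
      rwa [neg_add_cancel_comm_assoc] at this
    · exact ⟨f, hgen x h1 h3 h2, EventuallyEq.rfl⟩
  obtain ⟨c, hc⟩ := exists_const L f hper hloc
  have hc0 : c = 0 := by
    have h1 : Tendsto g (𝓝[≠] (0 : ℂ)) (𝓝 0) := by
      have := hgan.continuousAt.tendsto.mono_left (nhdsWithin_le_nhds (s := {(0 : ℂ)}ᶜ))
      rwa [hg0] at this
    have hadd : Tendsto (fun w => v + w) (𝓝[≠] (0 : ℂ)) (𝓝[≠] v) := by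
      refine tendsto_nhdsWithin_iff.2 ⟨?_, ?_⟩
      · have := ((continuous_const_add v).tendsto 0).mono_left (nhdsWithin_le_nhds (s := {(0 : ℂ)}ᶜ))
        simpa using this
      · filter_upwards [self_mem_nhdsWithin] with w hw
        intro h
        exact hw (by simpa using h)
    have h2 : Tendsto g (𝓝[≠] (0 : ℂ)) (𝓝 c) := by
      refine tendsto_const_nhds.congr' ?_
      filter_upwards [hfg, hadd.eventually (hc v)] with h hh1 hh2
      rw [← hh1, hh2]
    exact tendsto_nhds_unique h2 h1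
  have hfu : f u = 0 := by
    have h1 := (hgen u hu huv huv').continuousAt.tendsto.mono_left (nhdsWithin_le_nhds (s := {u}ᶜ))
    have h2 : Tendsto f (𝓝[≠] u) (𝓝 c) := tendsto_const_nhds.congr' (hc u).symm
    rw [tendsto_nhds_unique h1 h2, hc0]
  rw [hf] at hfu
  linear_combination hfu

/-- **Duplication formula.** -/
theorem wp_duplication {v : ℂ} (hv : v ∉ L.lattice) (h2v : 2 * v ∉ L.lattice) :
    ℘[L] (2 * v) * ℘'[L] v ^ 2 =
      (3 * ℘[L] v ^ 2 - L.g₂ / 4) ^ 2 - 2 * ℘[L] v * ℘'[L] v ^ 2 := by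
  set y := ℘[L] v with hy
  set a := ℘'[L] v with ha
  obtain ⟨K, hK1, hK2, hK3, hK4⟩ := near_v L hv
  set W := (exists_wp_taylor L hv).choose with hW
  have hWan : AnalyticAt ℂ W 0 := (exists_wp_taylor L hv).choose_spec.1
  obtain ⟨R, hR1, hR2⟩ := exists_wp_zero L
  rw [← hy, ← ha] at hK4
  -- the identity for small nonzero `h`
  have hsq := L.derivWeierstrassP_sq v hv
  rw [← hy, ← ha] at hsq
  have key : ∀ᶠ h in 𝓝[≠] (0 : ℂ), (℘[L] (2 * v + h) + h ^ 2 * R h) * K h ^ 2 +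
      (2 * a * (2 * y * a) + (3 * y ^ 2 - L.g₂ / 4) ^ 2 - 2 * (3 * y ^ 2 - L.g₂ / 4) ^ 2 +
        h * (2 * a * W h + h ^ 3 * W h ^ 2 + 2 * (3 * y ^ 2 - L.g₂ / 4) * h * W h
          + 2 * (2 * y * a) * h ^ 2 * W h + h * (2 * y * a) ^ 2 +
            2 * (3 * y ^ 2 - L.g₂ / 4) * (2 * y * a)
          - 2 * (3 * y ^ 2 - L.g₂ / 4) * (2 * y * a + h * W h))) -
      2 * y * K h ^ 2 = 0 := by
    have h1 : ∀ᶠ h in 𝓝 (0 : ℂ), v + h ∉ L.lattice := by
      have : Tendsto (fun h => v + h) (𝓝 (0 : ℂ)) (𝓝 v) := by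
        have := (continuous_const_add v).tendsto 0
        simpa using this
      exact this.eventually (L.isClosed_lattice.isOpen_compl.mem_nhds hv)
    have h2 : ∀ᶠ h in 𝓝 (0 : ℂ), v + h + v ∉ L.lattice := by
      have : Tendsto (fun h => v + h + v) (𝓝 (0 : ℂ)) (𝓝 (2 * v)) := by
        have : Continuous fun h : ℂ => v + h + v := by fun_prop
        have := this.tendsto 0
        simpa [two_mul] using this
      exact this.eventually (L.isClosed_lattice.isOpen_compl.mem_nhds h2v)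
    have h3 : ∀ᶠ h in 𝓝[≠] (0 : ℂ), h ∉ L.lattice := by
      have := L.compl_lattice_sdiff_singleton_mem_nhds 0
      filter_upwards [nhdsWithin_le_nhds this, self_mem_nhdsWithin] with u hu1 hu2 hu3
      exact hu1 ⟨hu3, hu2⟩
    filter_upwards [hR2, self_mem_nhdsWithin, nhdsWithin_le_nhds h1, nhdsWithin_le_nhds h2, h3]
      with h hh1 hh2 hh3 hh4 hh5
    have hh0 : h ≠ 0 := hh2
    have e0 := wp_sum_formula L hv h2v hh3 hh4 (by rwa [add_sub_cancel_left])
    have e1 : ℘[L] (v + h) = y + h * K h := by linear_combination hK3 h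
    rw [show v + h + v = 2 * v + h by ring, show v + h - v = h by ring, e1, hh1, ← hy] at e0
    have e2 : K h = a + (3 * y ^ 2 - L.g₂ / 4) * h + 2 * y * a * h ^ 2 + h ^ 3 * W h :=
      congrFun hK4 h
    have e3 : h ^ 2 * ((℘[L] (2 * v + h) + h ^ 2 * R h) * K h ^ 2 +
      (2 * a * (2 * y * a) + (3 * y ^ 2 - L.g₂ / 4) ^ 2 - 2 * (3 * y ^ 2 - L.g₂ / 4) ^ 2 +
        h * (2 * a * W h + h ^ 3 * W h ^ 2 + 2 * (3 * y ^ 2 - L.g₂ / 4) * h * W h
          + 2 * (2 * y * a) * h ^ 2 * W h + h * (2 * y * a) ^ 2 +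
            2 * (3 * y ^ 2 - L.g₂ / 4) * (2 * y * a)
          - 2 * (3 * y ^ 2 - L.g₂ / 4) * (2 * y * a + h * W h))) -
      2 * y * K h ^ 2) = 0 := by
      have e4 : (℘[L] (2 * v + h) + h ^ 2 * R h) * h ^ 2 * K h ^ 2 + K h ^ 2 =
          (2 * (y + h * K h) * y - L.g₂ / 2) * (y + h * K h + y) - L.g₃ := by
        rw [← e0]
        field_simp
        ring
      have e5 : (2 * (y + h * K h) * y - L.g₂ / 2) * (y + h * K h + y) - L.g₃ =
          a ^ 2 + (6 * y ^ 2 - L.g₂ / 2) * (h * K h) + 2 * y * (h * K h) ^ 2 := by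
        linear_combination -hsq
      rw [e5] at e4
      have e6 : K h ^ 2 - a ^ 2 - (6 * y ^ 2 - L.g₂ / 2) * (h * K h) =
          h ^ 2 * (2 * a * (2 * y * a) + (3 * y ^ 2 - L.g₂ / 4) ^ 2 -
          2 * (3 * y ^ 2 - L.g₂ / 4) ^ 2 +
        h * (2 * a * W h + h ^ 3 * W h ^ 2 + 2 * (3 * y ^ 2 - L.g₂ / 4) * h * W h
          + 2 * (2 * y * a) * h ^ 2 * W h + h * (2 * y * a) ^ 2 +
            2 * (3 * y ^ 2 - L.g₂ / 4) * (2 * y * a)
          - 2 * (3 * y ^ 2 - L.g₂ / 4) * (2 * y * a + h * W h))) := by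
        rw [e2]
        ring
      linear_combination e4 - e6
    rcases mul_eq_zero.1 e3 with h | h
    · exact absurd h (pow_ne_zero 2 hh0)
    · exact h
  -- take the limit
  obtain ⟨Q, hQ⟩ : ∃ Q : ℂ → ℂ, Q = fun h => (℘[L] (2 * v + h) + h ^ 2 * R h) * K h ^ 2 +
      (2 * a * (2 * y * a) + (3 * y ^ 2 - L.g₂ / 4) ^ 2 - 2 * (3 * y ^ 2 - L.g₂ / 4) ^ 2 +
        h * (2 * a * W h + h ^ 3 * W h ^ 2 + 2 * (3 * y ^ 2 - L.g₂ / 4) * h * W h
          + 2 * (2 * y * a) * h ^ 2 * W h + h * (2 * y * a) ^ 2 +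
            2 * (3 * y ^ 2 - L.g₂ / 4) * (2 * y * a)
          - 2 * (3 * y ^ 2 - L.g₂ / 4) * (2 * y * a + h * W h))) -
      2 * y * K h ^ 2 := ⟨_, rfl⟩
  have hQan : AnalyticAt ℂ Q 0 := by
    have h1 : AnalyticAt ℂ (fun h => ℘[L] (2 * v + h)) 0 := by
      have := analyticAt_wp_add L (v := 2 * v) (x := 0) (by rwa [zero_add])
      simpa [add_comm] using this
    rw [hQ]
    fun_prop
  have hQ0 : Q 0 = 0 := by
    have h1 := hQan.continuousAt.tendsto.mono_left (nhdsWithin_le_nhds (s := {(0 : ℂ)}ᶜ))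
    have h2 : Tendsto Q (𝓝[≠] (0 : ℂ)) (𝓝 0) := by
      refine tendsto_const_nhds.congr' ?_
      filter_upwards [key] with h hh
      rw [hQ]
      exact hh.symm
    exact tendsto_nhds_unique h1 h2
  rw [hQ] at hQ0
  simp only [hK2] at hQ0
  rw [add_zero] at hQ0
  linear_combination hQ0

end Fermat.Agent.Wp
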