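import Fermat.Agent.Wp.SumFormula
import Mathlib.RingTheory.Int.Basic
import Mathlib.RingTheory.PrincipalIdealDomain

set_option autoImplicit false

/-!
# Surjectivity of `℘`, and lattice sums of a superlattice of prime index
-/

namespace Fermat.Agent.Wp

open Filter Topology PeriodPair Module
open scoped PeriodPair

variable (L : PeriodPair)

theorem eventually_notMem (x : ℂ) : ∀ᶠ u in 𝓝[≠] x, u ∉ L.lattice := by
  have := L.compl_lattice_sdiff_singleton_mem_nhds x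
  filter_upwards [nhdsWithin_le_nhds this, self_mem_nhdsWithin] with u hu1 hu2 hu3
  exact hu1 ⟨hu3, hu2⟩

/-- `℘` takes every value. -/
theorem exists_wp_eq (x : ℂ) : ∃ z, z ∉ L.lattice ∧ ℘[L] z = x := by
  by_contra hcon
  push Not at hcon
  obtain ⟨f, hf⟩ : ∃ f : ℂ → ℂ, f = fun z => (℘[L] z - x)⁻¹ := ⟨_, rfl⟩
  have hper : ∀ z, ∀ l ∈ L.lattice, f (z + l) = f z := by
    intro z l hl
    have e1 := L.weierstrassP_add_coe z ⟨l, hl⟩
    rw [hf]
    simp only at e1 ⊢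
    rw [e1]
  obtain ⟨R, hR1, hR2⟩ := exists_wp_zero L
  obtain ⟨g, hg⟩ : ∃ g : ℂ → ℂ, g = fun u => u ^ 2 / (1 + u ^ 4 * R u - x * u ^ 2) := ⟨_, rfl⟩
  have hgan : AnalyticAt ℂ g 0 := by
    rw [hg]
    have h1 : AnalyticAt ℂ (fun u => 1 + u ^ 4 * R u - x * u ^ 2) 0 := by fun_prop
    exact (by fun_prop : AnalyticAt ℂ (fun u : ℂ => u ^ 2) 0).fun_div h1 (by simp)
  have hfg : f =ᶠ[𝓝[≠] (0 : ℂ)] g := by
    filter_upwards [hR2, self_mem_nhdsWithin] with u hu1 hu2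
    have hu0 : u ≠ 0 := hu2
    rw [hf, hg]
    simp only
    rw [hu1]
    have h2 : 1 / u ^ 2 + u ^ 2 * R u - x = (1 + u ^ 4 * R u - x * u ^ 2) / u ^ 2 := by
      field_simp
    rw [h2, inv_div]
  have hloc : ∀ x, ∃ g : ℂ → ℂ, AnalyticAt ℂ g x ∧ f =ᶠ[𝓝[≠] x] g := by
    intro z
    by_cases hz : z ∈ L.lattice
    · have := local_translate L hper hz ⟨g, hgan, hfg⟩
      rwa [zero_add] at this
    · refine ⟨f, ?_, EventuallyEq.rfl⟩
      rw [hf]
      have h1 := L.analyticOnNhd_weierstrassP z hz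
      have h2 : AnalyticAt ℂ (fun z => ℘[L] z - x) z := by fun_prop
      exact h2.fun_inv (sub_ne_zero.2 (hcon z hz))
  obtain ⟨c, hc⟩ := exists_const L f hper hloc
  have h1 : Tendsto g (𝓝[≠] (0 : ℂ)) (𝓝 (g 0)) :=
    hgan.continuousAt.tendsto.mono_left nhdsWithin_le_nhds
  have h2 : Tendsto g (𝓝[≠] (0 : ℂ)) (𝓝 c) := by
    refine tendsto_const_nhds.congr' ?_
    filter_upwards [hfg, hc 0] with h hh1 hh2
    rw [← hh1, hh2]
  have hc0 : c = 0 := by
    rw [tendsto_nhds_unique h2 h1, hg]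
    simp
  obtain ⟨u, hu1, hu2⟩ := ((hc 0).and (eventually_notMem L 0)).exists
  rw [hc0, hf] at hu1
  simp only [inv_eq_zero] at hu1
  exact hcon u hu2 (sub_eq_zero.1 hu1)

/-- The sixth power sums. -/
theorem sumInvPow_six {x : ℂ} (hx : x ∉ L.lattice) :
    L.sumInvPow x 6 = ℘[L] x ^ 3 - 3 / 20 * L.g₂ * ℘[L] x - L.g₃ / 10 := by
  have hopen := L.isClosed_lattice.isOpen_compl
  have hd : ∀ w ∉ L.lattice, HasDerivAt ℘[L] (℘'[L] w) w := by
    intro w hw
    have := (L.analyticOnNhd_weierstrassP w hw).differentiableAt.hasDerivAt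
    rwa [L.deriv_weierstrassP] at this
  have hd' : ∀ w ∉ L.lattice, HasDerivAt ℘'[L] (6 * ℘[L] w ^ 2 - L.g₂ / 2) w := by
    intro w hw
    have := (L.analyticOnNhd_derivWeierstrassP w hw).differentiableAt.hasDerivAt
    rw [deriv_derivWp L hw, sumInvPow_four L hw] at this
    convert! this using 1
    ring
  have e3 : ∀ w ∉ L.lattice, iteratedDeriv 3 ℘[L] w = 12 * ℘[L] w * ℘'[L] w := by
    intro w hw
    have h2 : iteratedDeriv 2 ℘[L] =ᶠ[𝓝 w] fun w => 6 * ℘[L] w ^ 2 - L.g₂ / 2 := by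
      filter_upwards [hopen.mem_nhds hw] with w hw
      have := iteratedDeriv_wp L hw 1
      rw [this, sumInvPow_four L hw]
      norm_num [Nat.factorial]
      ring
    rw [iteratedDeriv_succ, h2.deriv_eq]
    have h4 := (((hd w hw).fun_pow 2).const_mul 6).sub_const (L.g₂ / 2)
    refine h4.deriv.trans ?_
    push_cast
    ring
  have e4 : iteratedDeriv 4 ℘[L] x = 12 * (℘'[L] x * ℘'[L] x + ℘[L] x *
      (6 * ℘[L] x ^ 2 - L.g₂ / 2)) := by
    have h2 : iteratedDeriv 3 ℘[L] =ᶠ[𝓝 x] fun w => 12 * (℘[L] w * ℘'[L] w) := by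
      filter_upwards [hopen.mem_nhds hx] with w hw
      rw [e3 w hw]
      ring
    rw [iteratedDeriv_succ, h2.deriv_eq]
    exact (((hd x hx).fun_mul (hd' x hx)).const_mul 12).deriv
  have h1 := iteratedDeriv_wp L hx 3
  rw [e4] at h1
  norm_num [Nat.factorial] at h1
  have h2 := L.derivWeierstrassP_sq x hx
  linear_combination -h1 / 120 + h2 / 10

section Super

variable {L} {L' : PeriodPair} {p : ℕ} {z : ℂ}

theorem zsmul_mem_iff (hp : p.Prime) (hz : z ∉ L.lattice) (hpz : (p : ℂ) * z ∈ L.lattice)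
    (m : ℤ) : (m : ℂ) * z ∈ L.lattice ↔ (p : ℤ) ∣ m := by
  constructor
  · intro hm
    by_contra hcon
    have hcop : IsCoprime (p : ℤ) m :=
      (Nat.prime_iff_prime_int.1 hp).irreducible.coprime_iff_not_dvd.2 hcon
    obtain ⟨a, b, hab⟩ := hcop
    apply hz
    have h1 : z = a * ((p : ℂ) * z) + b * ((m : ℂ) * z) := by
      have : (a : ℂ) * p + b * m = 1 := by exact_mod_cast hab
      linear_combination (-z) * this
    rw [h1, ← zsmul_eq_mul, ← zsmul_eq_mul]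
    exact add_mem (L.lattice.smul_mem a hpz) (L.lattice.smul_mem b hm)
  · rintro ⟨k, rfl⟩
    have : ((p * k : ℤ) : ℂ) * z = k • ((p : ℂ) * z) := by
      rw [zsmul_eq_mul]
      push_cast
      ring
    rw [this]
    exact L.lattice.smul_mem k hpz

/-- Coset decomposition of the superlattice generated by `z`. -/
theorem bijective_coset (hp : p.Prime) (hz : z ∉ L.lattice) (hpz : (p : ℂ) * z ∈ L.lattice)
    (hL' : ∀ w, w ∈ L'.lattice ↔ ∃ l ∈ L.lattice, ∃ m : ℤ, w = l + m * z) :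
    ∃ e : (Fin p × L.lattice) ≃ L'.lattice,
      ∀ x, ((e x : L'.lattice) : ℂ) = (x.2 : ℂ) - (x.1 : ℕ) * z := by
  have hmem : ∀ x : Fin p × L.lattice, (x.2 : ℂ) - (x.1 : ℕ) * z ∈ L'.lattice := by
    intro x
    rw [hL']
    refine ⟨x.2, x.2.2, -(x.1 : ℕ), ?_⟩
    push_cast
    ring
  refine ⟨Equiv.ofBijective (fun x => ⟨_, hmem x⟩) ⟨?_, ?_⟩, fun x => rfl⟩
  · rintro ⟨k, l⟩ ⟨k', l'⟩ h
    have h1 : (l : ℂ) - (k : ℕ) * z = (l' : ℂ) - (k' : ℕ) * z := congrArg Subtype.val h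
    have h2 : (((k : ℕ) - (k' : ℕ) : ℤ) : ℂ) * z ∈ L.lattice := by
      have : (((k : ℕ) - (k' : ℕ) : ℤ) : ℂ) * z = (l : ℂ) - l' := by
        push_cast
        linear_combination -h1
      rw [this]
      exact sub_mem l.2 l'.2
    rw [zsmul_mem_iff hp hz hpz] at h2
    have h3 : (k : ℕ) = k' := by
      have := k.2
      have := k'.2
      obtain ⟨c, hc⟩ := h2
      have h4 : c = 0 := by
        by_contra hc0
        rcases lt_or_gt_of_ne hc0 with h | h
        · have : (p : ℤ) * c ≤ p * (-1) := by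
            apply mul_le_mul_of_nonneg_left <;> omega
          omega
        · have : (p : ℤ) * 1 ≤ p * c := by
            apply mul_le_mul_of_nonneg_left <;> omega
          omega
      rw [h4] at hc
      omega
    have h4 : k = k' := Fin.ext h3
    subst h4
    have h5 : (l : ℂ) = l' := by linear_combination h1
    rw [Prod.mk.injEq]
    exact ⟨rfl, Subtype.ext h5⟩
  · rintro ⟨w, hw⟩
    obtain ⟨l, hl, m, hlm⟩ := (hL' w).1 hw
    have hp0 : (0 : ℤ) < p := by exact_mod_cast hp.pos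
    obtain ⟨k, hk⟩ : ∃ k : ℕ, (k : ℤ) = (-m) % p := ⟨((-m) % p).toNat, by
      rw [Int.toNat_of_nonneg (Int.emod_nonneg _ hp0.ne')]⟩
    have hkp : k < p := by
      have := Int.emod_lt_of_pos (-m) hp0
      omega
    have hdvd : (p : ℤ) ∣ m + k := by
      rw [hk]
      have := Int.emod_add_mul_ediv (-m) p
      refine ⟨-((-m) / p), ?_⟩
      linarith
    refine ⟨⟨⟨k, hkp⟩, ⟨l + ((m + k : ℤ) : ℂ) * z, add_mem hl ((zsmul_mem_iff hp hz hpz _).2 hdvd)⟩⟩, ?_⟩
    apply Subtype.ext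
    simp only
    rw [hlm]
    push_cast
    ring

/-- Power sums over the superlattice. -/
theorem G_super (hp : p.Prime) (hz : z ∉ L.lattice) (hpz : (p : ℂ) * z ∈ L.lattice)
    (hL' : ∀ w, w ∈ L'.lattice ↔ ∃ l ∈ L.lattice, ∃ m : ℤ, w = l + m * z) {n : ℕ} (hn : 2 < n) :
    L'.G n = L.G n + ∑ k ∈ Finset.Icc 1 (p - 1), L.sumInvPow (k * z) n := by
  obtain ⟨e, he⟩ := bijective_coset hp hz hpz hL'
  have h1 : L'.G n = ∑' x : Fin p × L.lattice, (((x.2 : ℂ) - (x.1 : ℕ) * z) ^ n)⁻¹ := by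
    rw [G, ← e.tsum_eq]
    refine tsum_congr fun x => ?_
    rw [he]
  have hsum : Summable fun x : Fin p × L.lattice => (((x.2 : ℂ) - (x.1 : ℕ) * z) ^ n)⁻¹ := by
    have h2 := (L'.hasSum_sumInvPow 0 hn).summable
    have h3 := e.summable_iff.2 h2
    refine h3.congr fun x => ?_
    simp [he]
  rw [h1, hsum.tsum_prod, tsum_fintype, Fin.sum_univ_eq_sum_range
    (fun k => ∑' l : L.lattice, (((l : ℂ) - (k : ℕ) * z) ^ n)⁻¹)]
  have h4 : Finset.range p = insert 0 (Finset.Icc 1 (p - 1)) := by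
    ext k
    have := hp.pos
    simp only [Finset.mem_range, Finset.mem_insert, Finset.mem_Icc]
    omega
  rw [h4, Finset.sum_insert (by simp)]
  congr 1
  rw [G]
  simp

theorem g₂_super (hp : p.Prime) (hz : z ∉ L.lattice) (hpz : (p : ℂ) * z ∈ L.lattice)
    (hL' : ∀ w, w ∈ L'.lattice ↔ ∃ l ∈ L.lattice, ∃ m : ℤ, w = l + m * z) :
    L'.g₂ = L.g₂ + ∑ k ∈ Finset.Icc 1 (p - 1), (60 * ℘[L] (k * z) ^ 2 - 5 * L.g₂) := by
  rw [g₂, G_super hp hz hpz hL' (by norm_num), mul_add, Finset.mul_sum, ← g₂]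
  congr 1
  refine Finset.sum_congr rfl fun k hk => ?_
  rw [Finset.mem_Icc] at hk
  have hkz : (k : ℂ) * z ∉ L.lattice := by
    have := zsmul_mem_iff hp hz hpz k
    push_cast at this
    rw [this]
    intro h
    have := Nat.le_of_dvd (by omega) (by exact_mod_cast h : p ∣ k)
    have := hp.pos
    omega
  rw [sumInvPow_four L hkz]
  ring

theorem g₃_super (hp : p.Prime) (hz : z ∉ L.lattice) (hpz : (p : ℂ) * z ∈ L.lattice)
    (hL' : ∀ w, w ∈ L'.lattice ↔ ∃ l ∈ L.lattice, ∃ m : ℤ, w = l + m * z) :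
    L'.g₃ = L.g₃ + ∑ k ∈ Finset.Icc 1 (p - 1),
      (140 * ℘[L] (k * z) ^ 3 - 21 * L.g₂ * ℘[L] (k * z) - 14 * L.g₃) := by
  rw [g₃, G_super hp hz hpz hL' (by norm_num), mul_add, Finset.mul_sum, ← g₃]
  congr 1
  refine Finset.sum_congr rfl fun k hk => ?_
  rw [Finset.mem_Icc] at hk
  have hkz : (k : ℂ) * z ∉ L.lattice := by
    have := zsmul_mem_iff hp hz hpz k
    push_cast at this
    rw [this]
    intro h
    have := Nat.le_of_dvd (by omega) (by exact_mod_cast h : p ∣ k)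
    have := hp.pos
    omega
  rw [sumInvPow_six L hkz]
  ring

end Super

end Fermat.Agent.Wp
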