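import Fermat.Agent.Wp.Isog
import Fermat.Agent.DivPoly.Zeros

set_option autoImplicit false
set_option linter.style.haveILetI false

/-!
# Torsion points of prime order and division points of the lattice
-/

namespace Fermat.Agent.Wp

open Filter Topology PeriodPair
open scoped PeriodPair
open WeierstrassCurve Fermat.Agent.DivPoly

/-- The lattice `L` uniformizes the Weierstrass curve `W`. -/
structure Unif (L : PeriodPair) (W : WeierstrassCurve.Affine ℂ) : Prop where
  h2 : L.g₂ = W.c₄ / 12
  h3 : L.g₃ = W.c₆ / 216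

section Shift

variable {F : Type*} [Field F] [CharZero F] {W : WeierstrassCurve.Affine F}

theorem psi2_sq_shift {P : W.Point} (hP : P ≠ 0) :
    psi2 P ^ 2 = 4 * (xc P + W.b₂ / 12) ^ 3 - W.c₄ / 12 * (xc P + W.b₂ / 12) - W.c₆ / 216 := by
  rw [psi2_sq hP]
  simp only [c₄, c₆]
  ring

theorem sum_shift [DecidableEq F] {P Q : W.Point} (hP : P ≠ 0) (hQ : Q ≠ 0) (h : xc P ≠ xc Q) :
    ((xc (P + Q) + W.b₂ / 12) + (xc (P - Q) + W.b₂ / 12)) *
      ((xc P + W.b₂ / 12) - (xc Q + W.b₂ / 12)) ^ 2 =
      (2 * (xc P + W.b₂ / 12) * (xc Q + W.b₂ / 12) - W.c₄ / 12 / 2) *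
        ((xc P + W.b₂ / 12) + (xc Q + W.b₂ / 12)) - W.c₆ / 216 := by
  have h1 := xc_add_add_xc_sub hP hQ h
  simp only [c₄, c₆]
  linear_combination h1

theorem dup_shift [DecidableEq F] {P : W.Point} (hP : P ≠ 0) (h2 : P + P ≠ 0) :
    (xc (P + P) + W.b₂ / 12) * psi2 P ^ 2 =
      (3 * (xc P + W.b₂ / 12) ^ 2 - W.c₄ / 12 / 4) ^ 2 -
        2 * (xc P + W.b₂ / 12) * psi2 P ^ 2 := by
  have h1 := xc_two hP h2
  have h3 := psi2_sq hP
  have h4 := W.b_relation
  simp only [c₄]
  linear_combination h1 + (2 * xc P + W.b₂ / 4) * h3 - h4 / 4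

end Shift

variable {L : PeriodPair} {W : WeierstrassCurve.Affine ℂ}

theorem Unif.disc (hU : Unif L W) : L.g₂ ^ 3 - 27 * L.g₃ ^ 2 = W.Δ := by
  rw [hU.h2, hU.h3]
  have := W.c_relation
  linear_combination -this / 1728

/-- `℘'(z) ≠ 0` when `z` is not of order two (needs nonzero discriminant). -/
theorem derivWp_ne_zero (hD : L.g₂ ^ 3 - 27 * L.g₃ ^ 2 ≠ 0) {z : ℂ} (hz : z ∉ L.lattice)
    (h2z : 2 * z ∉ L.lattice) : ℘'[L] z ≠ 0 := by
  intro h
  have h1 := wp_duplication L hz h2z
  have h2 := L.derivWeierstrassP_sq z hz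
  rw [h] at h1 h2
  have h3 : 3 * ℘[L] z ^ 2 - L.g₂ / 4 = 0 := by
    have : (3 * ℘[L] z ^ 2 - L.g₂ / 4) ^ 2 = 0 := by linear_combination -h1
    exact pow_eq_zero_iff (by norm_num) |>.1 this
  apply hD
  have h4 : L.g₂ = 12 * ℘[L] z ^ 2 := by linear_combination -4 * h3
  have h5 : L.g₃ = -8 * ℘[L] z ^ 3 := by
    rw [h4] at h2
    linear_combination h2
  rw [h4, h5]
  ring

theorem natCast_mul_notMem {p : ℕ} (hp : p.Prime) {z : ℂ} (hz : z ∉ L.lattice)
    (hpz : (p : ℂ) * z ∈ L.lattice) {k : ℕ} (h1 : 1 ≤ k) (h2 : k < p) :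
    (k : ℂ) * z ∉ L.lattice := by
  have := zsmul_mem_iff hp hz hpz k
  push_cast at this
  rw [this]
  intro h
  have := Nat.le_of_dvd (by omega) (by exact_mod_cast h : p ∣ k)
  omega

/-- A division point of the lattice gives a torsion point. -/
theorem exists_torsion_of_mem (hU : Unif L W) (hΔ : W.Δ ≠ 0) {p : ℕ} (hp : p.Prime) (hp3 : 3 ≤ p)
    {z : ℂ} (hz : z ∉ L.lattice) (hpz : (p : ℂ) * z ∈ L.lattice) :
    ∃ P : W.Point, P ≠ 0 ∧ p • P = 0 ∧
      ∀ k ∈ Finset.Icc 1 (p - 1), xc (k • P) + W.b₂ / 12 = ℘[L] (k * z) := by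
  have hD : L.g₂ ^ 3 - 27 * L.g₃ ^ 2 ≠ 0 := by rw [hU.disc]; exact hΔ
  have hnm : ∀ k : ℕ, 1 ≤ k → k < p → (k : ℂ) * z ∉ L.lattice := fun k h1 h2 =>
    natCast_mul_notMem hp hz hpz h1 h2
  have h2z : 2 * z ∉ L.lattice := by
    have := hnm 2 (by norm_num) (by omega)
    exact_mod_cast this
  have hd0 : ℘'[L] z ≠ 0 := derivWp_ne_zero hD hz h2z
  have hdsq := L.derivWeierstrassP_sq z hz
  obtain ⟨P, hP0, hPx⟩ := exists_point hΔ (℘[L] z - W.b₂ / 12)
  have hX1 : xc P + W.b₂ / 12 = ℘[L] z := by rw [hPx]; ring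
  have hpsi : psi2 P ^ 2 = ℘'[L] z ^ 2 := by
    rw [psi2_sq_shift hP0, hX1, hdsq, hU.h2, hU.h3]
  have hpsi0 : psi2 P ≠ 0 := by
    intro h
    rw [h] at hpsi
    apply hd0
    exact pow_eq_zero_iff (by norm_num) |>.1 (by rw [← hpsi]; norm_num : ℘'[L] z ^ 2 = 0)
  have h2P : P + P ≠ 0 := fun h => hpsi0 (psi2_eq_zero hP0 h)
  have key : ∀ k : ℕ, 1 ≤ k → k < p →
      (k • P ≠ 0 ∧ xc (k • P) + W.b₂ / 12 = ℘[L] (k * z)) := by
    intro k
    induction k using Nat.strong_induction_on with
    | _ k ih =>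
      intro hk1 hk2
      rcases Nat.lt_or_ge k 3 with hk3 | hk3
      · interval_cases k
        · refine ⟨by simpa using hP0, ?_⟩
          rw [one_nsmul, Nat.cast_one, one_mul, hX1]
        · refine ⟨by rwa [two_nsmul], ?_⟩
          have e1 := dup_shift hP0 h2P
          have e2 := wp_duplication L hz h2z
          rw [hX1, hpsi, ← hU.h2] at e1
          rw [two_nsmul]
          push_cast
          have h3 : ℘'[L] z ^ 2 ≠ 0 := pow_ne_zero 2 hd0
          apply mul_right_cancel₀ h3
          rw [e1, e2]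
      · obtain ⟨m, rfl⟩ : ∃ m, k = m + 2 := ⟨k - 2, by omega⟩
        obtain ⟨a1, a2⟩ := ih (m + 1) (by omega) (by omega) (by omega)
        obtain ⟨b1, b2⟩ := ih m (by omega) (by omega) (by omega)
        have hu := hnm (m + 1) (by omega) (by omega)
        have huv : ((m + 1 : ℕ) : ℂ) * z + z ∉ L.lattice := by
          have := hnm (m + 2) (by omega) (by omega)
          push_cast at this ⊢
          convert! this using 1
          ring
        have huv' : ((m + 1 : ℕ) : ℂ) * z - z ∉ L.lattice := by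
          have := hnm m (by omega) (by omega)
          push_cast at this ⊢
          convert! this using 1
          ring
        have e1 := wp_sum_formula L hz h2z hu huv huv'
        have hne : ℘[L] (((m + 1 : ℕ) : ℂ) * z) ≠ ℘[L] z := by
          intro h
          rw [h] at e1
          apply hd0
          have : ℘'[L] z ^ 2 = 0 := by
            rw [hdsq]
            linear_combination -e1
          exact pow_eq_zero_iff (by norm_num) |>.1 this
        have hxne : xc ((m + 1) • P) ≠ xc P := by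
          intro h
          apply hne
          rw [← a2, h, hX1]
        have e2 := sum_shift a1 hP0 hxne
        rw [a2, hX1, ← hU.h2, ← hU.h3] at e2
        have hP1 : (m + 1) • P + P = (m + 2) • P := by
          rw [← succ_nsmul]
        have hP2 : (m + 1) • P - P = m • P := by
          rw [succ_nsmul, add_sub_cancel_right]
        rw [hP1, hP2, b2] at e2
        have h3 : (℘[L] (((m + 1 : ℕ) : ℂ) * z) - ℘[L] z) ^ 2 ≠ 0 :=
          pow_ne_zero 2 (sub_ne_zero.2 hne)
        refine ⟨?_, ?_⟩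
        · intro h
          have h4 : (m + 1) • P = -P := by
            rw [← hP1] at h
            exact eq_neg_of_add_eq_zero_left h
          apply hxne
          rw [h4, xc_neg]
        · have z1 : ((m + 1 : ℕ) : ℂ) * z + z = ((m + 2 : ℕ) : ℂ) * z := by push_cast; ring
          have z2 : ((m + 1 : ℕ) : ℂ) * z - z = (m : ℂ) * z := by push_cast; ring
          rw [z1, z2] at e1
          have h4 := mul_right_cancel₀ h3 (e2.trans e1.symm)
          linear_combination h4
  have hlast : p • P = 0 := by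
    obtain ⟨a1, a2⟩ := key (p - 1) (by omega) (by omega)
    have h1 : ℘[L] (((p - 1 : ℕ) : ℂ) * z) = ℘[L] z := by
      have h2 : ((p - 1 : ℕ) : ℂ) * z = -z + (p : ℂ) * z := by
        rw [Nat.cast_sub (by omega)]
        push_cast
        ring
      rw [h2]
      have := L.weierstrassP_add_coe (-z) ⟨_, hpz⟩
      simp only at this
      rw [this, L.weierstrassP_neg]
    rw [h1, ← hX1] at a2
    have h3 : xc ((p - 1) • P) = xc P := by linear_combination a2
    rcases eq_or_eq_neg a1 hP0 h3 with h | h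
    · exfalso
      have h4 : (p - 2) • P = 0 := by
        have : (p - 1) • P = (p - 2) • P + P := by
          rw [← succ_nsmul]
          congr 1
          omega
        rw [this] at h
        simpa using h
      exact (key (p - 2) (by omega) (by omega)).1 h4
    · have : p • P = (p - 1) • P + P := by
        rw [← succ_nsmul]
        congr 1
        omega
      rw [this, h, neg_add_cancel]
  refine ⟨P, hP0, hlast, fun k hk => ?_⟩
  rw [Finset.mem_Icc] at hk
  exact (key k hk.1 (by omega)).2

/-- A torsion point comes from a division point of the lattice. -/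
theorem exists_mem_of_torsion (hU : Unif L W) {p : ℕ} (hp : p.Prime) (hp3 : 3 ≤ p)
    {P : W.Point} (hP0 : P ≠ 0) (hpP : p • P = 0) :
    ∃ z : ℂ, z ∉ L.lattice ∧ (p : ℂ) * z ∈ L.lattice ∧
      ∀ k ∈ Finset.Icc 1 (p - 1), ℘[L] (k * z) = xc (k • P) + W.b₂ / 12 := by
  obtain ⟨z, hz, hzP⟩ := exists_wp_eq L (xc P + W.b₂ / 12)
  have hnP : ∀ k : ℕ, 1 ≤ k → k < p → k • P ≠ 0 := by
    intro k h1 h2 h
    have hord : addOrderOf P = p := by
      haveI := Fact.mk hp
      exact addOrderOf_eq_prime hpP hP0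
    have := addOrderOf_dvd_of_nsmul_eq_zero h
    rw [hord] at this
    have := Nat.le_of_dvd (by omega) this
    omega
  have h2P : P + P ≠ 0 := by
    have := hnP 2 (by norm_num) (by omega)
    rwa [two_nsmul] at this
  have hpsi0 := psi2_ne_zero hP0 h2P
  have hdsq := L.derivWeierstrassP_sq z hz
  have hpsi : psi2 P ^ 2 = ℘'[L] z ^ 2 := by
    rw [psi2_sq_shift hP0, ← hzP, hdsq, hU.h2, hU.h3]
  have hd0 : ℘'[L] z ≠ 0 := by
    intro h
    rw [h] at hpsi
    apply hpsi0
    exact pow_eq_zero_iff (by norm_num) |>.1 (by rw [hpsi]; norm_num : psi2 P ^ 2 = 0)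
  have h2z : 2 * z ∉ L.lattice := by
    intro h
    apply hd0
    have h1 := L.derivWeierstrassP_sub_coe z ⟨_, h⟩
    simp only at h1
    rw [show z - 2 * z = -z by ring, L.derivWeierstrassP_neg] at h1
    have : (2 : ℂ) * ℘'[L] z = 0 := by linear_combination -h1
    simpa using this
  have key : ∀ k : ℕ, 1 ≤ k → k < p →
      ((k : ℂ) * z ∉ L.lattice ∧ xc (k • P) + W.b₂ / 12 = ℘[L] (k * z)) := by
    intro k
    induction k using Nat.strong_induction_on with
    | _ k ih =>
      intro hk1 hk2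
      rcases Nat.lt_or_ge k 3 with hk3 | hk3
      · interval_cases k
        · refine ⟨by simpa using hz, ?_⟩
          rw [one_nsmul, Nat.cast_one, one_mul, hzP]
        · refine ⟨by exact_mod_cast h2z, ?_⟩
          have e1 := dup_shift hP0 h2P
          have e2 := wp_duplication L hz h2z
          rw [← hzP, hpsi, ← hU.h2] at e1
          rw [two_nsmul]
          push_cast
          have h3 : ℘'[L] z ^ 2 ≠ 0 := pow_ne_zero 2 hd0
          apply mul_right_cancel₀ h3
          rw [e1, e2]
      · obtain ⟨m, rfl⟩ : ∃ m, k = m + 2 := ⟨k - 2, by omega⟩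
        obtain ⟨a1, a2⟩ := ih (m + 1) (by omega) (by omega) (by omega)
        obtain ⟨b1, b2⟩ := ih m (by omega) (by omega) (by omega)
        have hP1 : (m + 1) • P + P = (m + 2) • P := by
          rw [← succ_nsmul]
        have hP2 : (m + 1) • P - P = m • P := by
          rw [succ_nsmul, add_sub_cancel_right]
        have hm1 := hnP (m + 1) (by omega) (by omega)
        have hxne : xc ((m + 1) • P) ≠ xc P := by
          intro h
          rcases eq_or_eq_neg hm1 hP0 h with h | h
          · have : m • P = 0 := by rw [← hP2, h, sub_self]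
            exact hnP m (by omega) (by omega) this
          · have : (m + 2) • P = 0 := by rw [← hP1, h, neg_add_cancel]
            exact hnP (m + 2) (by omega) (by omega) this
        have hne : ℘[L] (((m + 1 : ℕ) : ℂ) * z) ≠ ℘[L] z := by
          intro h
          apply hxne
          rw [← a2, hzP] at h
          linear_combination h
        have z1 : ((m + 1 : ℕ) : ℂ) * z + z = ((m + 2 : ℕ) : ℂ) * z := by push_cast; ring
        have z2 : ((m + 1 : ℕ) : ℂ) * z - z = (m : ℂ) * z := by push_cast; ring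
        have hnm : ((m + 2 : ℕ) : ℂ) * z ∉ L.lattice := by
          intro h
          apply hne
          have h1 := L.weierstrassP_sub_coe (((m + 1 : ℕ) : ℂ) * z) ⟨_, h⟩
          simp only at h1
          rw [← h1, ← z1, show ((m + 1 : ℕ) : ℂ) * z - (((m + 1 : ℕ) : ℂ) * z + z) = -z by ring,
            L.weierstrassP_neg]
        have e1 := wp_sum_formula L hz h2z a1 (by rwa [z1]) (by rwa [z2])
        have e2 := sum_shift hm1 hP0 hxne
        rw [a2, ← hzP, ← hU.h2, ← hU.h3] at e2
        rw [hP1, hP2, b2] at e2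
        have h3 : (℘[L] (((m + 1 : ℕ) : ℂ) * z) - ℘[L] z) ^ 2 ≠ 0 :=
          pow_ne_zero 2 (sub_ne_zero.2 hne)
        refine ⟨hnm, ?_⟩
        rw [z1, z2] at e1
        have h4 := mul_right_cancel₀ h3 (e2.trans e1.symm)
        linear_combination h4
  refine ⟨z, hz, ?_, fun k hk => ?_⟩
  · by_contra hpz
    obtain ⟨a1, a2⟩ := key (p - 1) (by omega) (by omega)
    obtain ⟨b1, b2⟩ := key (p - 2) (by omega) (by omega)
    have h1 : (p - 1) • P = -P := by
      have : p • P = (p - 1) • P + P := by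
        rw [← succ_nsmul]
        congr 1
        omega
      rw [this] at hpP
      exact eq_neg_of_add_eq_zero_left hpP
    rw [h1, xc_neg, ← hzP] at a2
    have z1 : ((p - 1 : ℕ) : ℂ) * z + z = (p : ℂ) * z := by
      rw [Nat.cast_sub (by omega)]
      push_cast
      ring
    have z2 : ((p - 1 : ℕ) : ℂ) * z - z = ((p - 2 : ℕ) : ℂ) * z := by
      rw [Nat.cast_sub (by omega), Nat.cast_sub (by omega)]
      push_cast
      ring
    have e1 := wp_sum_formula L hz h2z a1 (by rwa [z1]) (by rwa [z2])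
    rw [← a2] at e1
    apply hd0
    have : ℘'[L] z ^ 2 = 0 := by
      rw [hdsq]
      linear_combination -e1
    exact pow_eq_zero_iff (by norm_num) |>.1 this
  · rw [Finset.mem_Icc] at hk
    exact (key k hk.1 (by omega)).2.symm

end Fermat.Agent.Wp
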