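import Fermat.Agent.Wp.Torsion

set_option autoImplicit false
set_option linter.style.haveILetI false

/-!
# The `j`-invariant of the quotient by a subgroup of prime order (Vélu)
-/

namespace Fermat.Agent.Wp

open UpperHalfPlane hiding I
open Complex Filter Topology PeriodPair Module ModularForm EisensteinSeries
open scoped PeriodPair MatrixGroups Real
open WeierstrassCurve Fermat.Agent.DivPoly Fermat.Agent.ModFn

section Def

variable {F : Type*} [Field F] [DecidableEq F]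

/-- Vélu's quantity `t` (summed over all nonzero points). -/
def T4 (W : WeierstrassCurve.Affine F) (P : W.Point) (p : ℕ) : F :=
  ∑ k ∈ Finset.Icc 1 (p - 1), (6 * xc (k • P) ^ 2 + W.b₂ * xc (k • P) + W.b₄)

/-- Vélu's quantity of degree three. -/
def T6 (W : WeierstrassCurve.Affine F) (P : W.Point) (p : ℕ) : F :=
  ∑ k ∈ Finset.Icc 1 (p - 1), (120 * xc (k • P) ^ 3 + 30 * W.b₂ * xc (k • P) ^ 2 +
    (W.b₂ ^ 2 + 36 * W.b₄) * xc (k • P) + W.b₂ * W.b₄ + 12 * W.b₆)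

/-- `c₄` of the quotient. -/
def C4 (W : WeierstrassCurve.Affine F) (P : W.Point) (p : ℕ) : F := W.c₄ + 120 * T4 W P p

/-- `c₆` of the quotient. -/
def C6 (W : WeierstrassCurve.Affine F) (P : W.Point) (p : ℕ) : F := W.c₆ + 252 * T6 W P p

/-- The `j`-invariant of the quotient of `W` by the subgroup generated by `P`, of order `p`. -/
def jV (W : WeierstrassCurve.Affine F) (P : W.Point) (p : ℕ) : F :=
  1728 * C4 W P p ^ 3 / (C4 W P p ^ 3 - C6 W P p ^ 2)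

end Def

variable {L L' : PeriodPair} {W : WeierstrassCurve.Affine ℂ}

theorem g₂_velu (hU : Unif L W) {p : ℕ} (hp : p.Prime) {z : ℂ} (hz : z ∉ L.lattice)
    (hpz : (p : ℂ) * z ∈ L.lattice)
    (hL' : ∀ w, w ∈ L'.lattice ↔ ∃ l ∈ L.lattice, ∃ m : ℤ, w = l + m * z) {P : W.Point}
    (hP : ∀ k ∈ Finset.Icc 1 (p - 1), ℘[L] (k * z) = xc (k • P) + W.b₂ / 12) :
    L'.g₂ = C4 W P p / 12 := by
  rw [g₂_super hp hz hpz hL', C4, T4, hU.h2, Finset.mul_sum, add_div, Finset.sum_div]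
  congr 1
  refine Finset.sum_congr rfl fun k hk => ?_
  rw [hP k hk]
  simp only [c₄]
  ring

theorem g₃_velu (hU : Unif L W) {p : ℕ} (hp : p.Prime) {z : ℂ} (hz : z ∉ L.lattice)
    (hpz : (p : ℂ) * z ∈ L.lattice)
    (hL' : ∀ w, w ∈ L'.lattice ↔ ∃ l ∈ L.lattice, ∃ m : ℤ, w = l + m * z) {P : W.Point}
    (hP : ∀ k ∈ Finset.Icc 1 (p - 1), ℘[L] (k * z) = xc (k • P) + W.b₂ / 12) :
    L'.g₃ = C6 W P p / 216 := by
  rw [g₃_super hp hz hpz hL', C6, T6, hU.h2, hU.h3, Finset.mul_sum, add_div, Finset.sum_div]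
  congr 1
  refine Finset.sum_congr rfl fun k hk => ?_
  rw [hP k hk]
  simp only [c₄, c₆]
  ring

theorem jL_velu (hU : Unif L W) {p : ℕ} (hp : p.Prime) {z : ℂ} (hz : z ∉ L.lattice)
    (hpz : (p : ℂ) * z ∈ L.lattice)
    (hL' : ∀ w, w ∈ L'.lattice ↔ ∃ l ∈ L.lattice, ∃ m : ℤ, w = l + m * z) {P : W.Point}
    (hP : ∀ k ∈ Finset.Icc 1 (p - 1), ℘[L] (k * z) = xc (k • P) + W.b₂ / 12) :
    jL L' = jV W P p ∧ L'.g₂ ^ 3 - 27 * L'.g₃ ^ 2 = (C4 W P p ^ 3 - C6 W P p ^ 2) / 1728 := by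
  have h2 := g₂_velu hU hp hz hpz hL' hP
  have h3 := g₃_velu hU hp hz hpz hL' hP
  have hd : L'.g₂ ^ 3 - 27 * L'.g₃ ^ 2 = (C4 W P p ^ 3 - C6 W P p ^ 2) / 1728 := by
    rw [h2, h3]
    ring
  refine ⟨?_, hd⟩
  rw [jL, hd, h2, jV]
  by_cases h : C4 W P p ^ 3 - C6 W P p ^ 2 = 0
  · rw [h]; simp
  field_simp
  ring

/-- **Complex uniformization of `p`-isogenies.** -/
theorem exists_tau (hΔ : W.Δ ≠ 0) {p : ℕ} (hp : p.Prime) (hp3 : 3 ≤ p) :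
    haveI : NeZero p := ⟨hp.ne_zero⟩
    ∃ τ : ℍ, jH τ = W.c₄ ^ 3 / W.Δ ∧
      (∀ P : W.Point, P ≠ 0 → p • P = 0 → C4 W P p ^ 3 - C6 W P p ^ 2 ≠ 0 ∧
        (jV W P p = jH (act !![(p : ℤ), 0; 0, 1] τ) ∨
          ∃ i : ℕ, i < p ∧ jV W P p = jH (act !![(1 : ℤ), (i : ℤ); 0, (p : ℤ)] τ))) ∧
      (∃ P : W.Point, P ≠ 0 ∧ p • P = 0 ∧ jV W P p = jH (act !![(p : ℤ), 0; 0, 1] τ)) ∧
      (∀ i : ℤ, ∃ P : W.Point, P ≠ 0 ∧ p • P = 0 ∧
        jV W P p = jH (act !![(1 : ℤ), i; 0, (p : ℤ)] τ)) := by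
  haveI : NeZero p := ⟨hp.ne_zero⟩
  have hdisc : (W.c₄ / 12) ^ 3 - 27 * (W.c₆ / 216) ^ 2 = W.Δ := by
    have := W.c_relation
    linear_combination -this / 1728
  obtain ⟨τ, c, hc, h2, h3⟩ := exists_lattice (A := W.c₄ / 12) (B := W.c₆ / 216)
    (by rw [hdisc]; exact hΔ)
  have hU : Unif (scale c hc (perOf τ)) W := ⟨h2, h3⟩
  refine ⟨τ, ?_, ?_, ?_, ?_⟩
  · rw [← jL_perOf, ← jL_scale hc, jL, h2, h3, hdisc]
    field_simp
    ring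
  · intro P hP0 hpP
    obtain ⟨z, hz, hpz, hzP⟩ := exists_mem_of_torsion hU hp hp3 hP0 hpP
    obtain ⟨L', h4, h5⟩ := exists_super hc τ hp hz hpz
    obtain ⟨h6, h7⟩ := jL_velu hU hp hz hpz h5 hzP
    have h8 : L'.g₂ ^ 3 - 27 * L'.g₃ ^ 2 ≠ 0 := by
      rcases h4 with h | ⟨i, -, h⟩ <;> exact h.disc_ne
    refine ⟨?_, ?_⟩
    · intro h
      rw [h7, h, zero_div] at h8
      exact h8 rfl
    · rw [← h6]
      rcases h4 with h | ⟨i, hi, h⟩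
      · exact Or.inl h.jL_eq
      · exact Or.inr ⟨i, hi, h.jL_eq⟩
  · obtain ⟨z, hz, hpz, L', h4, h5⟩ := exists_gen_inf hc τ hp
    obtain ⟨P, hP0, hpP, hP⟩ := exists_torsion_of_mem hU hΔ hp hp3 hz hpz
    obtain ⟨h6, -⟩ := jL_velu hU hp hz hpz h5 (fun k hk => (hP k hk).symm)
    exact ⟨P, hP0, hpP, by rw [← h6, h4.jL_eq]⟩
  · intro i
    obtain ⟨z, hz, hpz, L', h4, h5⟩ := exists_gen_fin hc τ hp i
    obtain ⟨P, hP0, hpP, hP⟩ := exists_torsion_of_mem hU hΔ hp hp3 hz hpz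
    obtain ⟨h6, -⟩ := jL_velu hU hp hz hpz h5 (fun k hk => (hP k hk).symm)
    exact ⟨P, hP0, hpP, by rw [← h6, h4.jL_eq]⟩

end Fermat.Agent.Wp
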